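import Fermat.Agent.S55.Dual.HomBridge
import Fermat.Agent.S55.Dual.LevelDuality
import Fermat.Prelude.Def_ExtEndgame_ProductionDatum

/-!
# S56 / [GW-EC] cell [EC-H2LOW]: the seams of the cell (prefix `s56e2_`)

Sub-cells of [EC-H2LOW] (global classes of `H²(G_S, Hom(F, E_S))[p]` with prescribed local
invariants), each stated as a `Prop`:

* `s56e2_Basis`   : a permutation basis of a lattice (universal property form);
* `s56e2_TN_stmt` : (TN20) `H²(Γ, Hom(Y, C))(p)` of a class module is detected by the invariants of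
  the evaluations at the `Γ`-invariant elements of a permutation lattice `Y`;
* `s56e2_Loc_stmt`: (LOC) semi-local classes with prescribed invariants at one place `q`;
* `s56e2_LDG_stmt`: (LDG) growth of the local degrees: every level has a level above it whose
  decomposition groups at the primes of `S` are `p ^ k` times bigger.
-/

set_option autoImplicit false

open CategoryTheory groupCohomology ExtCitation

namespace Fermat.Agent.S56

open Fermat.Agent.S55

/-- A permutation basis of the lattice `Y`, indexed by the `Γ`-set `T` (universal property on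
abelian groups of universe `0`). -/
structure s56e2_Basis {Γ : Type} [Group Γ] (T : Type) [MulAction Γ T] (Y : Rep.{0} ℤ Γ) where
  /-- the basis -/
  b : T → Y.V
  smul : ∀ (g : Γ) (t : T), Y.ρ g (b t) = b (g • t)
  lift : ∀ (X : Type) [AddCommGroup X] (f : T → X), ∃ φ : Y.V →+ X, ∀ t, φ (b t) = f t
  ext : ∀ (X : Type) [AddCommGroup X] (φ ψ : Y.V →+ X), (∀ t, φ (b t) = ψ (b t)) → φ = ψ

/-- **(TN20).**  For a `p`-class module `(C, P)` of the finite group `Γ` and a permutation lattice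
`Y`: a `p`-primary class `z` of `H²(Γ, Hom(Y, C))` all of whose evaluations `ev_f z ∈ H²(Γ, C)`
at `Γ`-invariant `f ∈ Y` have invariant `0` vanishes. -/
def s56e2_TN_stmt : Prop :=
  ∀ (p : ℕ) [Fact p.Prime] {Γ : Type} [Group Γ] [Finite Γ] {C : Rep.{0} ℤ Γ}
    (P : PClassModule p C) {T : Type} [MulAction Γ T] [Finite T] (Y : Rep.{0} ℤ Γ)
    (_ : s56e2_Basis T Y) (z : groupCohomology (tt_hom Y C) 2), tt_IsPPrimary p z →
    (∀ (f : Y.V) (hf : ∀ g, Y.ρ g f = f),
      P.invTop ((tt_coeffMap (tt_ev C f hf) 2).hom z) = 0) → z = 0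

/-- **(LOC).**  One-level data `𝔻`, a place `q` at which `H²(Γ, J_q) → H²(D_q, X_q)` is onto, a
permutation lattice `Y` all of whose basis elements have a stabiliser in `D_q` of order
divisible by `p`, and `τ : Y → ℚ/ℤ` with values killed by `p`: there is a `p`-primary class
`ξ ∈ H²(Γ, Hom(Y, J_q))` whose local invariants are `inv_q (ev_f (pr (res ξ))) = τ f` for all
`D_q`-invariant `f`. -/
def s56e2_Loc_stmt : Prop :=
  ∀ (p : ℕ) [Fact p.Prime] {Γ : Type} [Group Γ] [Finite Γ] {ι : Type} (𝔻 : ld_Data p Γ ι) (q : ι),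
    (∀ w : groupCohomology (𝔻.Xq q) 2, ∃ υ : groupCohomology (𝔻.Jq q) 2,
        (tt_coeffMap (𝔻.pr q) 2).hom ((tt_resMap (𝔻.D q) (𝔻.Jq q) 2).hom υ) = w) →
    ∀ {T : Type} [MulAction Γ T] [Finite T] (Y : Rep.{0} ℤ Γ) (_ : s56e2_Basis T Y),
    (∀ t : T, p ∣ Nat.card ↥(MulAction.stabilizer Γ t ⊓ 𝔻.D q)) →
    ∀ τ : Y.V →+ tt_QZ, (∀ y, p • τ y = 0) →
    ∃ ξ : groupCohomology (tt_hom Y (𝔻.Jq q)) 2, tt_IsPPrimary p ξ ∧
      ∀ (f : Y.V) (hf : ∀ d : ↥(𝔻.D q), (tt_res (𝔻.D q) Y).ρ d f = f),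
        (𝔻.Pq q).invTop ((tt_coeffMap (tt_ev (𝔻.Xq q) f hf) 2).hom
          ((tt_coeffMap (tt_homPost (tt_res (𝔻.D q) Y) (𝔻.pr q)) 2).hom
            ((tt_resMap (𝔻.D q) (tt_hom Y (𝔻.Jq q)) 2).hom ξ))) = τ f

/-- **(LDG).**  Growth of the local degrees: above every level `K` of `du_Lev S` (`p ∈ S`) there
is a level whose decomposition groups at all primes of `S` have order divisible by `p ^ k` times
the order of those of `K`. -/
def s56e2_LDG_stmt : Prop :=
  ∀ (p : ℕ) [Fact p.Prime] (S : Finset Nat.Primes), pPrime p ∈ S → ∀ (K : du_Lev S) (k : ℕ),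
    ∃ a : du_Lev S, K ≤ a ∧ ∀ q ∈ S, p ^ k * Nat.card ↥(K.D q) ∣ Nat.card ↥(a.D q)

/-- **(CNT).**  The counting step from "classes with prescribed invariants" to the inequality
(LOW) of [EC-BASE], abstractly: `B` a finite group of order prime to `p`, `X` a finite `B`-module
killed by `p`, `Br` a `B`-module with finite `p`-torsion, `Y` a finite `B`-set, `PT = F_p[Y]`,
`P₁ = F_p` with trivial action, and an invariant map `Λ` on the `p`-torsion of `Br`, additive,
`B`-equivariant, hitting every function of sum zero. -/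
def s56e2_Count_stmt : Prop :=
  ∀ (p : ℕ) [Fact p.Prime] {B : Type} [Group B] [Finite B], ¬ p ∣ Nat.card B →
    ∀ (X : Type) [AddCommGroup X] [DistribMulAction B X] [Finite X], (∀ x : X, p • x = 0) →
    ∀ (Br : Type) [AddCommGroup Br] [DistribMulAction B Br], Finite {y : Br // p • y = 0} →
    ∀ (Y : Type) [MulAction B Y] [Finite Y] [Fintype Y]
      (PT : Type) [AddCommGroup PT] [DistribMulAction B PT] (eT : PT ≃+ (Y → ZMod p)),
      (∀ (b : B) (a : PT) (v : Y), eT (b • a) v = eT a (b⁻¹ • v)) →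
    ∀ (P₁ : Type) [AddCommGroup P₁] [DistribMulAction B P₁] (_e₁ : P₁ ≃+ ZMod p),
      (∀ (b : B) (a : P₁), b • a = a) →
    ∀ Λ : Br → Y → ZMod p,
      (∀ y y' : Br, p • y = 0 → p • y' = 0 → Λ (y + y') = Λ y + Λ y') →
      (∀ (b : B) (y : Br), p • y = 0 → ∀ v, Λ (b • y) v = Λ y (b⁻¹ • v)) →
      (∀ a : Y → ZMod p, ∑ v, a v = 0 → ∃ y : Br, p • y = 0 ∧ Λ y = a) →
      Nat.card (X →+[B] PT) ≤ Nat.card (X →+[B] Br) * Nat.card (X →+[B] P₁)

end Fermat.Agent.S56
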