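import Fermat.Agent.S56.GW.EC.H2Low.Closed
import Fermat.Agent.S56.GW.EC.H2Low.Bridge.Main

/-!
# S56 / [GW-EC] cell [EC-H2LOW], final form (prefix `s56e2_`)

* `s56e2_main'  : s56e2b_Main_stmt` — the global assembly `s56e2_closed` in the exact shape
  consumed by the bridge `s56e2b_main` (`H2Low/Bridge/Main.lean`);
* `s56e2_low : s56e2b_FinMu_stmt → s56eb_Low_stmt` — the seam (LOW) of [EC-BASE], with only the
  finiteness of `H²(G_S, T_μ)` left as a hypothesis.
-/

set_option autoImplicit false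

open ExtCitation

namespace Fermat.Agent.S56

open Fermat.Agent.S55

/-- **[EC-H2LOW], in the shape of the bridge.** -/
theorem s56e2_main' : s56e2b_Main_stmt := by
  intro p _ hp2 S hpS K0 A _ t ht hsum
  obtain ⟨y, hy, h⟩ := s56e2_closed hp2 S hpS K0 A t ht hsum
  refine ⟨y, hy, fun q f hf => ?_⟩
  rw [← h q (f : dm_Yl K0.q q.1 (la_F A)) (fun τ => hf τ)]
  rfl

/-- **The seam (LOW) of [EC-BASE]**, up to the finiteness of `H²(G_S, T_μ)`. -/
theorem s56e2_low (hFin : s56e2b_FinMu_stmt) : s56eb_Low_stmt :=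
  s56e2b_main hFin s56e2_main'

end Fermat.Agent.S56
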