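import Fermat.Agent.S55.Dual.BInjLevel

/-!
# S56 / [GW-EC] cell [EC-H2LOW]: the finite-level chase in degree 2 (prefix `s56e2_`)

For the seam `𝔖 : du_Seam p S`, levels `K₀ ≤ a` and the permutation lattice `F = ℤ[Δ × A]`
(`Δ = K₀.Γ`):

* `s56e2_cap2`: a class of `H²(Γ_a, Hom(Y, C°(a)))` dying in `H²(Γ_a, Hom(Y, C(a)))` is killed
  by an integer prime to `p` at a higher level (capitulation, cochain level, degree 2);
* `s56e2_mB_trans`: transitivity of the transition maps on `H²(Γ, Hom(Y, ∏ J_q))`;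
* `s56e2_fin`: a `p`-torsion class `ξ ∈ H²(Γ_a, Hom(F, ∏ J_q(a)))` whose image in
  `H²(Γ_a, Hom(F, C(a)))` vanishes is, at a higher level `b` and up to an integer `N` prime to
  `p`, the image of a `p`-torsion class of `H²(Γ_b, Hom(F, E(b)))`.
-/

set_option autoImplicit false
set_option linter.unusedSectionVars false

open CategoryTheory groupCohomology

namespace Fermat.Agent.S56

open Fermat.Agent.S55

noncomputable section

variable {p : ℕ} [hp : Fact p.Prime] {S : Finset Nat.Primes} (𝔖 : du_Seam p S)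

section Cap2

variable {K₀ a : du_Lev S} (ha : K₀ ≤ a) (Y : Rep.{0} ℤ K₀.Γ)

/-- Capitulation for a finite family of additive maps out of a lattice. -/
lemma s56e2_cap_family {Y' : Type*} [AddCommGroup Y'] {m : ℕ} (e : Y' ≃+ (Fin m → ℤ))
    {ι : Type*} [Fintype ι] (β : ι → Y' →+ tl_Act (𝔖.dat a).C) {b : du_Lev S} (hab : a ≤ b)
    (hcap : ∀ c : (𝔖.dat a).C.V, ∃ n : ℕ, ¬ p ∣ n ∧ n • 𝔖.tC hab c ∈ du_Co (𝔖.dat b)) :
    ∃ N : ℕ, ¬ p ∣ N ∧ ∀ (i : ι) (y : Y'), N • sl_tCact 𝔖 hab (β i y) ∈ sl_Co 𝔖 b := by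
  classical
  choose n hn hmem using fun i => bi_cap_hom 𝔖 e (β i) hab hcap
  refine ⟨∏ i, n i, ?_, fun i y => ?_⟩
  · intro hdvd
    obtain ⟨i, -, hi⟩ := (Prime.dvd_finsetProd_iff (Nat.Prime.prime hp.out) _).mp hdvd
    exact hn i hi
  · have hsplit : (∏ j, n j) = (∏ j ∈ Finset.univ.erase i, n j) * n i :=
      (Finset.prod_erase_mul Finset.univ n (Finset.mem_univ i)).symm
    rw [hsplit, mul_smul]
    exact nsmul_mem (hmem i y) _

variable [Nonempty ↥S] (hY : ld_IsLattice Y)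

set_option maxHeartbeats 1600000 in
/-- **The capitulation step in degree 2.**  A class of `H²(Γ_a, Hom(Y, C°(a)))` which dies in
`H²(Γ_a, Hom(Y, C(a)))` is killed by an integer prime to `p` at a higher level. -/
theorem s56e2_cap2
    (x : lvH2 (LevelSys.trivial a.Γ) (LvHom (tl_Act (sl_Y Y ha)) ↥(sl_Co 𝔖 a)))
    (hx0 : (bi_inclMor 𝔖 ha Y).H2 x = 0) :
    ∃ (b : du_Lev S) (hab : a ≤ b) (N : ℕ), ¬ p ∣ N ∧
      N • (sl_homSesMor 𝔖 Y ha hab hY).mC.H2 x = 0 := by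
  obtain ⟨c, rfl⟩ := lvH2mk_surjective x
  rw [LvMor.H2_mk, lvH2mk_eq_zero_iff] at hx0
  obtain ⟨β, -, hβ⟩ := hx0
  obtain ⟨b, hab, hcap⟩ := 𝔖.cap a
  obtain ⟨m, ⟨e⟩⟩ := id hY
  obtain ⟨N, hN, hmem⟩ := s56e2_cap_family 𝔖 ((sl_actEquiv (sl_Y Y ha)).trans e)
    (fun g : a.Γ => LvHom.toHom (β g)) hab hcap
  refine ⟨b, hab, N, hN, ?_⟩
  set cf : a.Γ × a.Γ → LvHom (tl_Act (sl_Y Y ha)) ↥(sl_Co 𝔖 a) :=
    (c : a.Γ × a.Γ → LvHom (tl_Act (sl_Y Y ha)) ↥(sl_Co 𝔖 a)) with hcf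
  -- the relation `ι ∘ c = d¹ β`, pointwise
  have hβ' : ∀ (g h : a.Γ) (y : tl_Act (sl_Y Y ha)),
      g • β h (g⁻¹ • y) - β (g * h) y + β g y =
        ((cf (g, h) y : ↥(sl_Co 𝔖 a)) : tl_Act (𝔖.dat a).C) := by
    intro g h y
    have h2 := congrFun hβ (g, h)
    rw [lvD1_apply] at h2
    exact congrArg (fun ψ : LvHom (tl_Act (sl_Y Y ha)) (tl_Act (𝔖.dat a).C) => ψ y) h2
  rw [LvMor.H2_mk, ← map_nsmul, lvH2mk_eq_zero_iff]
  -- the lifted 1-cochain at level `b`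
  let β₁ : b.Γ → tl_Act (sl_Y Y (le_trans ha hab)) →+ tl_Act (𝔖.dat b).C := fun g =>
    N • ((sl_tCact 𝔖 hab).comp
      ((LvHom.toHom (β (du_Lev.res hab g))).comp (sl_Yid Y ha (le_trans ha hab))))
  have hβ₁ : ∀ g y, β₁ g y =
      N • sl_tCact 𝔖 hab (β (du_Lev.res hab g) (sl_Yid Y ha (le_trans ha hab) y)) :=
    fun _ _ => rfl
  let β' : b.Γ → LvHom (tl_Act (sl_Y Y (le_trans ha hab))) ↥(sl_Co 𝔖 b) := fun g =>
    LvHom.of ((β₁ g).codRestrict (sl_Co 𝔖 b) (fun y => by rw [hβ₁]; exact hmem _ _))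
  have hβ'c : ∀ g y, ((β' g y : ↥(sl_Co 𝔖 b)) : tl_Act (𝔖.dat b).C) =
      N • sl_tCact 𝔖 hab (β (du_Lev.res hab g) (sl_Yid Y ha (le_trans ha hab) y)) :=
    fun _ _ => rfl
  refine ⟨β', LevelSys.isLC1_trivial β', ?_⟩
  funext ⟨g, h⟩
  rw [lvD1_apply]
  refine LvHom.ext fun y => Subtype.ext ?_
  show g • ((β' h (g⁻¹ • y) : ↥(sl_Co 𝔖 b)) : tl_Act (𝔖.dat b).C)
      - ((β' (g * h) y : ↥(sl_Co 𝔖 b)) : tl_Act (𝔖.dat b).C)
      + ((β' g y : ↥(sl_Co 𝔖 b)) : tl_Act (𝔖.dat b).C) =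
    N • sl_tCact 𝔖 hab ((cf (du_Lev.res hab g, du_Lev.res hab h)
      (sl_Yid Y ha (le_trans ha hab) y) : ↥(sl_Co 𝔖 a)) : tl_Act (𝔖.dat a).C)
  rw [hβ'c, hβ'c, hβ'c, ← hβ' (du_Lev.res hab g) (du_Lev.res hab h), map_add, map_sub, smul_add,
    smul_sub, sl_tCact_smul, smul_comm N g, map_mul]
  have hinv : sl_Yid Y ha (le_trans ha hab) (g⁻¹ • y) =
      (du_Lev.res hab g)⁻¹ • sl_Yid Y ha (le_trans ha hab) y := by
    rw [sl_Yid_smul, map_inv]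
  rw [hinv]

end Cap2

/-! ### Generalities on morphisms of short exact sequences -/

section SesMor

variable {G : Type*} [Group G] {A B C : Type*} [AddCommGroup A] [DistribMulAction G A]
  [AddCommGroup B] [DistribMulAction G B] [AddCommGroup C] [DistribMulAction G C]
  {E : LvSES G A B C} {L : LevelSys G}
  {H : Type*} [Group H] {A' B' C' : Type*} [AddCommGroup A'] [DistribMulAction H A']
  [AddCommGroup B'] [DistribMulAction H B'] [AddCommGroup C'] [DistribMulAction H C']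
  {E' : LvSES H A' B' C'} {LH : LevelSys H} (t : LvSESMor E L E' LH)

/-- `π` commutes with a morphism of short exact sequences on `H²`. -/
theorem s56e2_H2_mπ (z : lvH2 L B) :
    (E'.mπ LH).H2 (t.mB.H2 z) = t.mC.H2 ((E.mπ L).H2 z) := by
  obtain ⟨c, rfl⟩ := lvH2mk_surjective z
  simp only [LvMor.H2_mk]
  congr 1
  apply Subtype.ext
  funext ⟨h, h'⟩
  show E'.π (t.mB.φ (c.1 (t.mB.f h, t.mB.f h'))) = t.mC.φ (E.π (c.1 (t.mC.f h, t.mC.f h')))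
  rw [t.comm_π, t.fBC]

/-- `i` commutes with a morphism of short exact sequences on `H²`. -/
theorem s56e2_H2_mi (y : lvH2 L A) :
    (E'.mi LH).H2 (t.mA.H2 y) = t.mB.H2 ((E.mi L).H2 y) := by
  obtain ⟨c, rfl⟩ := lvH2mk_surjective y
  simp only [LvMor.H2_mk]
  congr 1
  apply Subtype.ext
  funext ⟨h, h'⟩
  show E'.i (t.mA.φ (c.1 (t.mA.f h, t.mA.f h'))) = t.mB.φ (E.i (c.1 (t.mB.f h, t.mB.f h')))
  rw [t.comm_i, t.fAB]

end SesMor

/-! ### Torsion -/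

section Torsion

/-- `H²` of a finite group is torsion (level form): a class is killed by the order of the
group. -/
lemma s56e2_card_smul_lvH2 {Γ : Type*} [Group Γ] [Finite Γ] {X : Type*} [AddCommGroup X]
    [DistribMulAction Γ X] (x : lvH2 (LevelSys.trivial Γ) X) : Nat.card Γ • x = 0 := by
  classical
  have := Fintype.ofFinite Γ
  obtain ⟨c, rfl⟩ := lvH2mk_surjective x
  rw [← map_nsmul, lvH2mk_eq_zero_iff]
  have hc : IsCocycle₂ (c : Γ × Γ → X) := c.2.1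
  refine ⟨fun g => ∑ k : Γ, (c : Γ × Γ → X) (g, k), LevelSys.isLC1_trivial _, ?_⟩
  funext ⟨g, h⟩
  rw [lvD1_apply]
  show g • ∑ k : Γ, (c : Γ × Γ → X) (h, k) - ∑ k : Γ, (c : Γ × Γ → X) (g * h, k)
      + ∑ k : Γ, (c : Γ × Γ → X) (g, k) = (Nat.card Γ • (c : Γ × Γ → X)) (g, h)
  have h1 : ∑ k : Γ, (c : Γ × Γ → X) (g, k) = ∑ k : Γ, (c : Γ × Γ → X) (g, h * k) :=
    (Fintype.sum_equiv (Equiv.mulLeft h) _ _ (fun _ => rfl)).symm
  rw [h1, Finset.smul_sum, ← Finset.sum_sub_distrib, ← Finset.sum_add_distrib]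
  have h2 : ∀ k : Γ, g • (c : Γ × Γ → X) (h, k) - (c : Γ × Γ → X) (g * h, k)
      + (c : Γ × Γ → X) (g, h * k) = (c : Γ × Γ → X) (g, h) := by
    intro k
    have := hc g h k
    -- `c (g*h, k) + c (g, h) = g • c (h, k) + c (g, h*k)`
    have h3 : g • (c : Γ × Γ → X) (h, k) - (c : Γ × Γ → X) (g * h, k)
        + (c : Γ × Γ → X) (g, h * k) =
        (g • (c : Γ × Γ → X) (h, k) + (c : Γ × Γ → X) (g, h * k))
          - (c : Γ × Γ → X) (g * h, k) := by abel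
    rw [h3, ← this]
    abel
  rw [Finset.sum_congr rfl (fun k _ => h2 k), Finset.sum_const, Finset.card_univ,
    Nat.card_eq_fintype_card]
  rfl

end Torsion

/-! ### Transitivity of the transition maps -/

section Trans

variable [Nonempty ↥S] {K₀ a b b' : du_Lev S} (ha : K₀ ≤ a) (hab : a ≤ b) (hbb' : b ≤ b')
  (Y : Rep.{0} ℤ K₀.Γ) (hY : ld_IsLattice Y)

/-- Transitivity of the transition maps on `H²(Γ, Hom(Y, ∏ J_q))`. -/
theorem s56e2_mB_trans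
    (ξ : lvH2 (LevelSys.trivial a.Γ) (LvHom (tl_Act (sl_Y Y ha)) (sl_J 𝔖 a))) :
    (sl_homSesMor 𝔖 Y (le_trans ha hab) hbb' hY).mB.H2
        ((sl_homSesMor 𝔖 Y ha hab hY).mB.H2 ξ) =
      (sl_homSesMor 𝔖 Y ha (le_trans hab hbb') hY).mB.H2 ξ := by
  obtain ⟨c, rfl⟩ := lvH2mk_surjective ξ
  simp only [LvMor.H2_mk]
  congr 1
  apply Subtype.ext
  funext ⟨g, h⟩
  refine LvHom.ext fun y => ?_
  show sl_tJ 𝔖 hbb' (sl_tJ 𝔖 hab (c.1 (du_Lev.res hab (du_Lev.res hbb' g),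
      du_Lev.res hab (du_Lev.res hbb' h)) _)) =
    sl_tJ 𝔖 (le_trans hab hbb') (c.1 (du_Lev.res (le_trans hab hbb') g,
      du_Lev.res (le_trans hab hbb') h) _)
  rw [sl_res_res, sl_res_res]
  funext q
  apply sl_ofAct_injective
  exact 𝔖.tJ_trans hab hbb' q _

end Trans

/-! ### The finite-level theorem -/

section Fin

variable [Nonempty ↥S] {K₀ a : du_Lev S} (ha : K₀ ≤ a) (A : Rep.{0} ℤ K₀.Γ)
  (hY : ld_IsLattice (la_F A))

set_option maxHeartbeats 1600000 in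
/-- **The finite-level chase.**  A `p`-torsion class `ξ` of `H²(Γ_a, Hom(F, ∏ J_q(a)))` whose
image in `H²(Γ_a, Hom(F, C(a)))` vanishes is, at a higher level `b` and up to an integer prime
to `p`, the image of a `p`-torsion class of `H²(Γ_b, Hom(F, E(b)))`. -/
theorem s56e2_fin
    (ξ : lvH2 (LevelSys.trivial a.Γ) (LvHom (tl_Act (sl_Y (la_F A) ha)) (sl_J 𝔖 a)))
    (hξ : p • ξ = 0)
    (hξC : (bi_inclMor 𝔖 ha (la_F A)).H2
      (((sl_homSes 𝔖 (la_F A) ha hY).mπ (LevelSys.trivial a.Γ)).H2 ξ) = 0) :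
    ∃ (b : du_Lev S) (hab : a ≤ b) (N : ℕ)
      (y : lvH2 (LevelSys.trivial b.Γ)
        (LvHom (tl_Act (sl_Y (la_F A) (le_trans ha hab))) (tl_Act (𝔖.E b)))),
      ¬ p ∣ N ∧ p • y = 0 ∧
      ((sl_homSes 𝔖 (la_F A) (le_trans ha hab) hY).mi (LevelSys.trivial b.Γ)).H2 y =
        N • (sl_homSesMor 𝔖 (la_F A) ha hab hY).mB.H2 ξ := by
  -- Step 1: capitulation
  obtain ⟨b₁, hab₁, N₁, hN₁, hcap⟩ := s56e2_cap2 𝔖 ha (la_F A) hY _ hξC
  have hB₁ := sl_isSmooth_trivial (Γ := b₁.Γ)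
    (LvHom (tl_Act (sl_Y (la_F A) (le_trans ha hab₁))) (sl_J 𝔖 b₁))
  set E₁ := sl_homSes 𝔖 (la_F A) (le_trans ha hab₁) hY with hE₁
  set t₁ := sl_homSesMor 𝔖 (la_F A) ha hab₁ hY with ht₁
  have hπ : (E₁.mπ (LevelSys.trivial b₁.Γ)).H2 (N₁ • t₁.mB.H2 ξ) = 0 := by
    rw [map_nsmul, s56e2_H2_mπ t₁ ξ]
    exact hcap
  obtain ⟨y₀, hy₀⟩ := (E₁.exact_H2B (LevelSys.trivial b₁.Γ) hB₁ _).1 hπ
  -- Step 2: `y₀` is torsion, take its `p`-primary part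
  have hcard : Nat.card b₁.Γ ≠ 0 := Nat.card_pos.ne'
  obtain ⟨yp, y', k, m, hm, hysum, hyp, hy'⟩ :=
    bi_primary_decomp p y₀ ⟨Nat.card b₁.Γ, hcard, s56e2_card_smul_lvH2 y₀⟩
  -- `y₁ := m • yp` is `p`-primary with `mi y₁ = (m * N₁) • t₁ ξ`
  have hmy : m • y₀ = m • yp := by rw [hysum, nsmul_add, hy', add_zero]
  have hy₁ : (E₁.mi (LevelSys.trivial b₁.Γ)).H2 (m • yp) = (m * N₁) • t₁.mB.H2 ξ := by
    rw [← hmy, map_nsmul, hy₀, mul_smul]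
  have hy₁p : p ^ k • (m • yp) = 0 := by rw [smul_comm, hyp, smul_zero]
  -- Step 3: `p • y₁` dies in `Hom(F, ∏ J_q)`, hence at a higher level
  have hpy : (E₁.mi (LevelSys.trivial b₁.Γ)).H2 (p • (m • yp)) = 0 := by
    rw [map_nsmul, hy₁, smul_comm, ← map_nsmul, hξ, map_zero, smul_zero]
  obtain ⟨b, hb₁b, hdie⟩ := bi_finite_level 𝔖 (le_trans ha hab₁) A hY (p • (m • yp))
    ⟨k, by rw [smul_comm, hy₁p, smul_zero]⟩ hpy
  set t₂ := sl_homSesMor 𝔖 (la_F A) (le_trans ha hab₁) hb₁b hY with ht₂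
  refine ⟨b, le_trans hab₁ hb₁b, m * N₁, t₂.mA.H2 (m • yp), ?_, ?_, ?_⟩
  · intro hdvd
    rcases (Nat.Prime.dvd_mul hp.out).1 hdvd with h | h
    · exact hm h
    · exact hN₁ h
  · rw [← map_nsmul]
    exact hdie
  · rw [s56e2_H2_mi t₂ (m • yp), hy₁, map_nsmul]
    congr 1
    exact s56e2_mB_trans 𝔖 ha hab₁ hb₁b (la_F A) hY ξ

end Fin

end

end Fermat.Agent.S56
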