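import Fermat.Agent.S56.GW.EC.H2Low.Seams
import Fermat.Agent.S55.Dual.ZSide
import Fermat.Agent.S55.Dual.Absorb
import Fermat.Agent.S55.Tate.TNLayer

/-!
# S56 / [GW-EC] cell [EC-H2LOW], sub-cell (LOC) (prefix `s56e2l_`)

`s56e2l_main : s56e2_Loc_stmt`: semi-local classes of `H²(Γ, Hom(Y, J_q))` with prescribed
invariants, for a permutation lattice `Y`.

Route: `u` a generator of the `p`-part of `H²(D_q, X_q)` (`inv_gen`), `υ ∈ H²(Γ, J_q)` `p`-primary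
above `u`; a `D_q`-invariant additive `c : Y → ℤ` with `c f • inv u = τ f` on `Y^{D_q}` (orbit by
orbit, `p ∣ #Stab`); `ψ' = Σ_t c(b t) • pr ∘ ev_{b t} : Hom(Y, J_q) → X_q` is `D_q`-equivariant,
`𝔻.frob` gives `ψ : Hom(Y, J_q) ⟶ J_q`; `Ψ : J_q ⟶ Hom(Y, J_q)`, `Ψ j (b t) = ψ (σ_t j)`, satisfies
`pr (Ψ j f) = c f • pr j`; `ξ := Ψ_* υ`.
-/

set_option autoImplicit false
set_option linter.unusedSectionVars false

open CategoryTheory groupCohomology ExtCitation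

namespace Fermat.Agent.S56

open Fermat.Agent.S55

noncomputable section

/-! ### Permutation bases -/

namespace s56e2_Basis

variable {Γ : Type} [Group Γ] {T : Type} [MulAction Γ T] {Y : Rep.{0} ℤ Γ} (B : s56e2_Basis T Y)

/-- The additive map with prescribed values on the basis. -/
def locL (X : Type) [AddCommGroup X] (f : T → X) : Y.V →+ X := (B.lift X f).choose

@[simp] theorem locL_b (X : Type) [AddCommGroup X] (f : T → X) (t : T) : B.locL X f (B.b t) = f t :=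
  (B.lift X f).choose_spec t

theorem locL_add (X : Type) [AddCommGroup X] (f f' : T → X) : B.locL X (f + f') = B.locL X f + B.locL X f' := by
  refine B.ext X _ _ fun t => ?_
  rw [AddMonoidHom.add_apply, locL_b, locL_b, locL_b, Pi.add_apply]

theorem locL_zero (X : Type) [AddCommGroup X] : B.locL X (0 : T → X) = 0 := by
  refine B.ext X _ _ fun t => ?_
  rw [locL_b, AddMonoidHom.zero_apply, Pi.zero_apply]

/-- `L` as an additive map. -/
def locLHom (X : Type) [AddCommGroup X] : (T → X) →+ (Y.V →+ X) where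
  toFun := B.locL X
  map_zero' := B.locL_zero X
  map_add' := B.locL_add X

@[simp] theorem locLHom_apply_b (X : Type) [AddCommGroup X] (f : T → X) (t : T) :
    B.locLHom X f (B.b t) = f t := B.locL_b X f t

/-- The action on the basis, inverse form. -/
theorem locSmul_inv (g : Γ) (t : T) : Y.ρ g⁻¹ (B.b t) = B.b (g⁻¹ • t) := B.smul g⁻¹ t

section Coord

variable [Fintype T] [DecidableEq T]

/-- The coordinate functionals of the basis. -/
def locCoord (t : T) : Y.V →+ ℤ := B.locL ℤ (Pi.single t 1)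

theorem locCoord_b (t t' : T) : B.locCoord t (B.b t') = (Pi.single t (1 : ℤ) : T → ℤ) t' :=
  B.locL_b ℤ _ t'

/-- Every additive map is determined by its values on the basis. -/
theorem locExpand (M : Type) [AddCommGroup M] (G : Y.V →+ M) (f : Y.V) :
    G f = ∑ t : T, B.locCoord t f • G (B.b t) := by
  let G' : Y.V →+ M := ∑ t : T, ((smulAddHom ℤ M).flip (G (B.b t))).comp (B.locCoord t)
  have h : G = G' := by
    refine B.ext M _ _ fun t' => ?_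
    show G (B.b t') = (∑ t : T, ((smulAddHom ℤ M).flip (G (B.b t))).comp (B.locCoord t)) (B.b t')
    rw [AddMonoidHom.finsetSum_apply, Finset.sum_eq_single t']
    · show _ = B.locCoord t' (B.b t') • G (B.b t')
      rw [locCoord_b, Pi.single_eq_same, one_smul]
    · intro t _ ht
      show B.locCoord t (B.b t') • G (B.b t) = 0
      rw [locCoord_b, Pi.single_eq_of_ne (Ne.symm ht), zero_smul]
    · intro h
      exact absurd (Finset.mem_univ t') h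
  have h2 := DFunLike.congr_fun h f
  rw [h2]
  show (∑ t : T, ((smulAddHom ℤ M).flip (G (B.b t))).comp (B.locCoord t)) f = _
  rw [AddMonoidHom.finsetSum_apply]
  rfl

/-- The coordinates are equivariant. -/
theorem locCoord_smul (g : Γ) (t : T) (y : Y.V) : B.locCoord (g • t) (Y.ρ g y) = B.locCoord t y := by
  let ρg : Y.V →+ Y.V :=
    { toFun := fun y => Y.ρ g y
      map_zero' := map_zero _
      map_add' := map_add _ }
  have h : (B.locCoord (g • t)).comp ρg = B.locCoord t := by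
    refine B.ext ℤ _ _ fun t' => ?_
    show B.locCoord (g • t) (Y.ρ g (B.b t')) = B.locCoord t (B.b t')
    rw [B.smul, locCoord_b, locCoord_b]
    by_cases ht : t' = t
    · subst ht
      rw [Pi.single_eq_same, Pi.single_eq_same]
    · have ht' : g • t' ≠ g • t := fun h => ht (smul_left_cancel g h)
      rw [Pi.single_eq_of_ne ht, Pi.single_eq_of_ne ht']
  exact DFunLike.congr_fun h y

end Coord

end s56e2_Basis

/-! ### General lemmas on morphisms of `ℤ`-representations -/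

section HomLemmas

variable {Γ : Type} [Group Γ] {A C : Rep.{0} ℤ Γ}

/-- Evaluation of morphisms at a point, as an additive map. -/
def s56e2l_homEval (x : A.V) : (A ⟶ C) →+ C.V where
  toFun φ := φ.hom x
  map_zero' := rfl
  map_add' _ _ := rfl

theorem s56e2l_zsmul_hom (φ : A ⟶ C) (n : ℤ) (x : A.V) : (n • φ).hom x = n • φ.hom x :=
  map_zsmul (s56e2l_homEval (C := C) x) n φ

/-- `Hⁿ` of an integer multiple of a coefficient map. -/
theorem s56e2l_coeffMap_zsmul (φ : A ⟶ C) (n : ℕ) (m : ℤ) (y : groupCohomology A n) :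
    (tt_coeffMap (m • φ) n).hom y = m • (tt_coeffMap φ n).hom y := by
  let F : (A ⟶ C) →+ groupCohomology C n :=
    { toFun := fun ψ => (tt_coeffMap ψ n).hom y
      map_zero' := by
        show (tt_coeffMap (0 : A ⟶ C) n).hom y = 0
        rw [ld_coeffMap_zero]
        rfl
      map_add' := fun ψ ψ' => by
        show (tt_coeffMap (ψ + ψ') n).hom y = _
        rw [ld_coeffMap_add]
        rfl }
  exact map_zsmul F m φ

/-- An additive map between the carriers as an element of `Hom(A, C)`. -/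
def s56e2l_lin : (A.V →+ C.V) →+ (tt_hom A C).V where
  toFun f := la_ofAddHomLin f
  map_zero' := rfl
  map_add' _ _ := rfl

@[simp] theorem s56e2l_lin_apply (f : A.V →+ C.V) (x : A.V) :
    (s56e2l_lin (A := A) (C := C) f) x = f x := rfl

end HomLemmas

/-! ### Arithmetic in `ℚ/ℤ` -/

section Arith

/-- In `ℚ/ℤ`: if `w` has order the `p`-part of `N = n * s` and `p ∣ s`, every element killed by
`p` is a multiple of `n • w`. -/
theorem s56e2l_exists_k (p : ℕ) [hp : Fact p.Prime] (w x : tt_QZ) (N n s : ℕ) (hN : N = n * s)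
    (hNpos : 0 < N) (hw : addOrderOf w = ordProj[p] N) (hs : p ∣ s) (hx : p • x = 0) :
    ∃ k : ℤ, x = k • (n • w) := by
  set m := N.factorization p with hm
  have hw' : addOrderOf w = p ^ m := hw
  -- the order of `n • w` is divisible by `p`
  have hpm : p ^ m • (n • w) = 0 := by
    rw [smul_comm, ← hw', addOrderOf_nsmul_eq_zero, smul_zero]
  have hne : n • w ≠ 0 := by
    intro h0
    have h1 : p ^ m ∣ n := by
      rw [← hw']
      exact addOrderOf_dvd_of_nsmul_eq_zero h0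
    have h2 : p ^ (m + 1) ∣ N := by
      rw [hN, pow_succ]
      exact Nat.mul_dvd_mul h1 hs
    exact Nat.pow_succ_factorization_not_dvd hNpos.ne' hp.out h2
  obtain ⟨j, -, hj⟩ := (Nat.dvd_prime_pow hp.out).1 (addOrderOf_dvd_of_nsmul_eq_zero hpm)
  have hj0 : j ≠ 0 := by
    intro h0
    rw [h0, pow_zero, AddMonoid.addOrderOf_eq_one_iff] at hj
    exact hne hj
  obtain ⟨i, hi⟩ : ∃ i, j = i + 1 := Nat.exists_eq_succ_of_ne_zero hj0
  have hord : addOrderOf (p ^ i • (n • w)) = p := by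
    have h3 : addOrderOf (p ^ i • (n • w)) = addOrderOf (n • w) / p ^ i :=
      addOrderOf_nsmul_of_dvd (pow_ne_zero _ hp.out.ne_zero) (by
        rw [hj, hi]
        exact pow_dvd_pow p (Nat.le_succ i))
    rw [h3, hj, hi, pow_succ, Nat.mul_div_cancel_left _ (pow_pos hp.out.pos i)]
  obtain ⟨k, hk⟩ := tn_QZ_zmultiple hp.out.pos (p ^ i • (n • w)) x hord hx
  refine ⟨k * (p ^ i : ℕ), ?_⟩
  rw [hk, mul_smul, natCast_zsmul]

/-- A `p`-primary preimage: if `N • υ₀ = 0` and `π υ₀` is `p`-primary, then `π υ₀ = π υ` for a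
`p`-primary `υ`. -/
theorem s56e2l_pprimary_lift (p : ℕ) [hp : Fact p.Prime] {A A' : Type*} [AddCommGroup A]
    [AddCommGroup A'] (π : A →+ A') (υ₀ : A) (N : ℕ) (hNpos : 0 < N) (hN : N • υ₀ = 0)
    (hu : tt_IsPPrimary p (π υ₀)) : ∃ υ : A, tt_IsPPrimary p υ ∧ π υ = π υ₀ := by
  obtain ⟨k, hk⟩ := hu
  set a := N.factorization p with ha
  set m := ordCompl[p] N with hm
  have hNam : p ^ a * m = N := Nat.ordProj_mul_ordCompl_eq_self N p
  have hcop : IsCoprime (m : ℤ) ((p ^ k : ℕ) : ℤ) := by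
    rw [Int.isCoprime_iff_gcd_eq_one, Int.gcd_natCast_natCast]
    exact (Nat.Coprime.pow_right k (Nat.coprime_ordCompl hp.out hNpos.ne').symm)
  obtain ⟨s, t, hst⟩ := hcop
  refine ⟨(s * m) • υ₀, ⟨a, ?_⟩, ?_⟩
  · rw [← natCast_zsmul, smul_smul]
    have h1 : ((p ^ a : ℕ) : ℤ) * (s * m) = s * (N : ℤ) := by
      rw [← hNam]
      push_cast
      ring
    rw [h1, mul_smul, natCast_zsmul, hN, smul_zero]
  · rw [map_zsmul]
    have h2 : (s * (m : ℤ)) • π υ₀ + (t * ((p ^ k : ℕ) : ℤ)) • π υ₀ = π υ₀ := by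
      rw [← add_smul, hst, one_smul]
    have h3 : (t * ((p ^ k : ℕ) : ℤ)) • π υ₀ = 0 := by
      rw [mul_smul, natCast_zsmul, hk, smul_zero]
    rw [h3, add_zero] at h2
    exact h2

end Arith

/-! ### Orbit sums -/

section Orbits

variable {D T : Type} [Group D] [MulAction D T] [Fintype T] [DecidableEq T]

open Classical in
/-- The orbit of `t₀` as a finset. -/
def s56e2l_orb (D : Type) [Group D] {T : Type} [MulAction D T] [Fintype T] (t₀ : T) : Finset T :=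
  Finset.univ.filter (fun t => t ∈ MulAction.orbit D t₀)

open Classical in
theorem s56e2l_mem_orb {t t₀ : T} : t ∈ s56e2l_orb D t₀ ↔ t ∈ MulAction.orbit D t₀ := by
  unfold s56e2l_orb
  rw [Finset.mem_filter]
  exact ⟨fun h => h.2, fun h => ⟨Finset.mem_univ _, h⟩⟩

open Classical in
theorem s56e2l_fiber_eq (t₀ : T) :
    Finset.univ.filter (fun t : T =>
      (Quotient.mk'' t : MulAction.orbitRel.Quotient D T) = Quotient.mk'' t₀) =
      s56e2l_orb D t₀ := by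
  ext t
  rw [Finset.mem_filter, s56e2l_mem_orb, Quotient.eq'', MulAction.orbitRel_apply]
  exact ⟨fun h => h.2, fun h => ⟨Finset.mem_univ _, h⟩⟩

/-- A sum weighted by an orbit-constant function vanishes if all orbit sums vanish. -/
theorem s56e2l_orbit_sum {M : Type*} [AddCommGroup M] (a : T → ℤ)
    (ha : ∀ (d : D) (t : T), a (d • t) = a t) (g : T → M)
    (hg : ∀ t₀ : T, ∑ t ∈ s56e2l_orb D t₀, g t = 0) : ∑ t, a t • g t = 0 := by
  classical
  have : Fintype (MulAction.orbitRel.Quotient D T) := Fintype.ofFinite _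
  rw [← Finset.sum_fiberwise Finset.univ
    (fun t => (Quotient.mk'' t : MulAction.orbitRel.Quotient D T)) (fun t => a t • g t)]
  refine Finset.sum_eq_zero fun ω _ => ?_
  induction ω using Quotient.inductionOn' with
  | h t₀ =>
    rw [s56e2l_fiber_eq]
    have h1 : ∀ t ∈ s56e2l_orb D t₀, a t • g t = a t₀ • g t := by
      intro t ht
      obtain ⟨d, rfl⟩ := s56e2l_mem_orb.1 ht
      show a (d • t₀) • g (d • t₀) = _
      rw [ha]
    rw [Finset.sum_congr rfl h1, ← Finset.smul_sum, hg, smul_zero]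

/-- The cardinality of the orbit finset. -/
theorem s56e2l_card_orb [Finite D] (t₀ : T) :
    (s56e2l_orb D t₀).card * Nat.card ↥(MulAction.stabilizer D t₀) = Nat.card D := by
  classical
  have : Fintype D := Fintype.ofFinite D
  have h1 := MulAction.card_orbit_mul_card_stabilizer_eq_card_group D t₀
  rw [Nat.card_eq_fintype_card, Nat.card_eq_fintype_card, ← h1]
  congr 1
  rw [← Fintype.card_coe]
  exact Fintype.card_congr (Equiv.subtypeEquivRight fun t => s56e2l_mem_orb)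

/-- **The weights.**  `w` of order the `p`-part of `#D`, all stabilisers of order divisible by
`p`, `τ'` with values killed by `p`: there are `D`-invariant integer weights `c` such that
`Σ_{t ∈ O} (c t • w − τ' t) = 0` for every orbit `O`. -/
theorem s56e2l_exists_weights [Finite D] (p : ℕ) [hp : Fact p.Prime] (w : tt_QZ)
    (hw : addOrderOf w = ordProj[p] (Nat.card D))
    (hstab : ∀ t : T, p ∣ Nat.card ↥(MulAction.stabilizer D t))
    (τ' : T → tt_QZ) (hτ : ∀ t, p • τ' t = 0) :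
    ∃ c : T → ℤ, (∀ (d : D) (t : T), c (d • t) = c t) ∧
      ∀ t₀ : T, ∑ t ∈ s56e2l_orb D t₀, (c t • w - τ' t) = 0 := by
  classical
  have hk : ∀ ω : MulAction.orbitRel.Quotient D T, ∃ k : ℤ,
      ∀ t₀ : T, Quotient.mk'' t₀ = ω →
        ∑ t ∈ s56e2l_orb D t₀, τ' t = k • ((s56e2l_orb D t₀).card • w) := by
    intro ω
    induction ω using Quotient.inductionOn' with
    | h t₁ =>
      have hx : p • ∑ t ∈ s56e2l_orb D t₁, τ' t = 0 := by
        rw [Finset.smul_sum]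
        exact Finset.sum_eq_zero fun t _ => hτ t
      obtain ⟨k, hk⟩ := s56e2l_exists_k p w (∑ t ∈ s56e2l_orb D t₁, τ' t) (Nat.card D)
        (s56e2l_orb D t₁).card (Nat.card ↥(MulAction.stabilizer D t₁))
        (s56e2l_card_orb t₁).symm Nat.card_pos hw (hstab t₁) hx
      refine ⟨k, fun t₀ ht₀ => ?_⟩
      have h1 : s56e2l_orb D t₀ = s56e2l_orb D t₁ := by
        rw [← s56e2l_fiber_eq, ← s56e2l_fiber_eq, ht₀]
      rw [h1]
      exact hk
  choose k hk using hk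
  refine ⟨fun t => k (Quotient.mk'' t), fun d t => ?_, fun t₀ => ?_⟩
  · show k (Quotient.mk'' (d • t)) = k (Quotient.mk'' t)
    congr 1
    rw [Quotient.eq'', MulAction.orbitRel_apply]
    exact ⟨d, rfl⟩
  · rw [Finset.sum_sub_distrib, hk _ t₀ rfl, sub_eq_zero]
    have h2 : ∀ t ∈ s56e2l_orb D t₀,
        k (Quotient.mk'' t) • w = k (Quotient.mk'' t₀) • w := by
      intro t ht
      congr 2
      rw [Quotient.eq'', MulAction.orbitRel_apply]
      exact s56e2l_mem_orb.1 ht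
    rw [Finset.sum_congr rfl h2, Finset.sum_const, smul_comm]

end Orbits

/-! ### The coefficient morphisms -/

section Loc

variable {p : ℕ} [Fact p.Prime] {Γ : Type} [Group Γ] {ι : Type} (𝔻 : ld_Data p Γ ι) (q : ι)
  {T : Type} [MulAction Γ T] [Fintype T] [DecidableEq T] (Y : Rep.{0} ℤ Γ) (B : s56e2_Basis T Y)

/-- Evaluation `Hom(Y, A) → A` at `y`, as an additive map. -/
def s56e2l_evAdd (A : Rep.{0} ℤ Γ) (y : Y.V) : (tt_hom Y A).V →+ A.V where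
  toFun h := h y
  map_zero' := rfl
  map_add' _ _ := rfl

@[simp] theorem s56e2l_evAdd_apply (A : Rep.{0} ℤ Γ) (y : Y.V) (h : (tt_hom Y A).V) :
    s56e2l_evAdd Y A y h = h y := rfl

/-- The additive map underlying an element of `Hom(Y, A)`. -/
def s56e2l_evAddFun (A : Rep.{0} ℤ Γ) (h : (tt_hom Y A).V) : Y.V →+ A.V where
  toFun y := h y
  map_zero' := map_zero h
  map_add' := map_add h

@[simp] theorem s56e2l_evAddFun_apply (A : Rep.{0} ℤ Γ) (h : (tt_hom Y A).V) (y : Y.V) :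
    s56e2l_evAddFun Y A h y = h y := rfl

/-- `ψ' = Σ_t c t • pr ∘ ev_{b t} : Hom(Y, J_q) → X_q`. -/
def s56e2l_psiAdd (c : T → ℤ) : (tt_hom Y (𝔻.Jq q)).V →+ (𝔻.Xq q).V :=
  ∑ t : T, c t • (ab_homAdd (𝔻.pr q)).comp (s56e2l_evAdd Y (𝔻.Jq q) (B.b t))

theorem s56e2l_psiAdd_apply (c : T → ℤ) (h : (tt_hom Y (𝔻.Jq q)).V) :
    s56e2l_psiAdd 𝔻 q Y B c h = ∑ t : T, c t • (𝔻.pr q).hom (h (B.b t)) := by
  unfold s56e2l_psiAdd
  rw [AddMonoidHom.finsetSum_apply]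
  rfl

theorem s56e2l_psiAdd_equiv (c : T → ℤ) (hc : ∀ (d : ↥(𝔻.D q)) (t : T), c ((d : Γ) • t) = c t)
    (d : ↥(𝔻.D q)) (h : (tt_hom Y (𝔻.Jq q)).V) :
    s56e2l_psiAdd 𝔻 q Y B c ((tt_res (𝔻.D q) (tt_hom Y (𝔻.Jq q))).ρ d h) =
      (𝔻.Xq q).ρ d (s56e2l_psiAdd 𝔻 q Y B c h) := by
  rw [s56e2l_psiAdd_apply, s56e2l_psiAdd_apply, map_sum]
  rw [← Equiv.sum_comp (MulAction.toPerm (d : Γ))
    (fun t => c t • (𝔻.pr q).hom
      (((tt_res (𝔻.D q) (tt_hom Y (𝔻.Jq q))).ρ d h) (B.b t)))]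
  refine Finset.sum_congr rfl fun t _ => ?_
  rw [MulAction.toPerm_apply, hc, map_zsmul]
  congr 1
  have h1 : ((tt_res (𝔻.D q) (tt_hom Y (𝔻.Jq q))).ρ d h) (B.b ((d : Γ) • t)) =
      (𝔻.Jq q).ρ (d : Γ) (h (B.b t)) := by
    show (𝔻.Jq q).ρ (d : Γ) (h (Y.ρ (d : Γ)⁻¹ (B.b ((d : Γ) • t)))) = _
    rw [B.locSmul_inv, inv_smul_smul]
  rw [h1]
  exact Rep.hom_comm_apply (𝔻.pr q) d (h (B.b t))

/-- `ψ'` as a morphism over `D_q`. -/
def s56e2l_psi' (c : T → ℤ) (hc : ∀ (d : ↥(𝔻.D q)) (t : T), c ((d : Γ) • t) = c t) :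
    tt_res (𝔻.D q) (tt_hom Y (𝔻.Jq q)) ⟶ 𝔻.Xq q :=
  la_ofAddHom (s56e2l_psiAdd 𝔻 q Y B c) (s56e2l_psiAdd_equiv 𝔻 q Y B c hc)

/-- Two elements of `Hom(Y, A)` agreeing on the basis are equal. -/
theorem s56e2l_lin_ext (A : Rep.{0} ℤ Γ) {h h' : (tt_hom Y A).V}
    (hb : ∀ t, h (B.b t) = h' (B.b t)) : h = h' := by
  have h1 : (s56e2l_evAddFun Y A h) = (s56e2l_evAddFun Y A h') :=
    B.ext A.V _ _ hb
  exact DFunLike.ext _ _ fun y => DFunLike.congr_fun h1 y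

/-- `σ_t j ∈ Hom(Y, J_q)`: `b t ↦ j`, `b t' ↦ 0` for `t' ≠ t`. -/
def s56e2l_sig (A : Rep.{0} ℤ Γ) (t : T) : A.V →+ (tt_hom Y A).V :=
  (s56e2l_lin (A := Y) (C := A)).comp
    ((B.locLHom A.V).comp (AddMonoidHom.single (fun _ : T => A.V) t))

theorem s56e2l_sig_b (A : Rep.{0} ℤ Γ) (t : T) (j : A.V) (t' : T) :
    (s56e2l_sig Y B A t j) (B.b t') = (Pi.single t j : T → A.V) t' := by
  show B.locLHom A.V (Pi.single t j) (B.b t') = _
  rw [s56e2_Basis.locLHom_apply_b]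

theorem s56e2l_sig_smul (A : Rep.{0} ℤ Γ) (g : Γ) (t : T) (j : A.V) :
    (tt_hom Y A).ρ g (s56e2l_sig Y B A t j) = s56e2l_sig Y B A (g • t) (A.ρ g j) := by
  refine s56e2l_lin_ext Y B A fun t' => ?_
  rw [s56e2l_sig_b]
  show A.ρ g ((s56e2l_sig Y B A t j) (Y.ρ g⁻¹ (B.b t'))) = _
  rw [B.locSmul_inv, s56e2l_sig_b]
  by_cases ht : t' = g • t
  · subst ht
    rw [inv_smul_smul, Pi.single_eq_same, Pi.single_eq_same]
  · have ht' : g⁻¹ • t' ≠ t := fun h => ht (by rw [← h, smul_inv_smul])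
    rw [Pi.single_eq_of_ne ht', Pi.single_eq_of_ne ht, map_zero]

/-- `Ψ j ∈ Hom(Y, A)`: `b t ↦ ψ (σ_t j)`. -/
def s56e2l_PsiAdd (A : Rep.{0} ℤ Γ) (ψ : tt_hom Y A ⟶ A) : A.V →+ (tt_hom Y A).V :=
  (s56e2l_lin (A := Y) (C := A)).comp
    ((B.locLHom A.V).comp (AddMonoidHom.pi fun t => (ab_homAdd ψ).comp (s56e2l_sig Y B A t)))

theorem s56e2l_PsiAdd_b (A : Rep.{0} ℤ Γ) (ψ : tt_hom Y A ⟶ A) (j : A.V) (t : T) :
    (s56e2l_PsiAdd Y B A ψ j) (B.b t) = ψ.hom (s56e2l_sig Y B A t j) := by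
  show B.locLHom A.V (fun t => ψ.hom (s56e2l_sig Y B A t j)) (B.b t) = _
  rw [s56e2_Basis.locLHom_apply_b]

theorem s56e2l_PsiAdd_equiv (A : Rep.{0} ℤ Γ) (ψ : tt_hom Y A ⟶ A) (g : Γ) (j : A.V) :
    s56e2l_PsiAdd Y B A ψ (A.ρ g j) = (tt_hom Y A).ρ g (s56e2l_PsiAdd Y B A ψ j) := by
  refine s56e2l_lin_ext Y B A fun t => ?_
  rw [s56e2l_PsiAdd_b]
  show _ = A.ρ g ((s56e2l_PsiAdd Y B A ψ j) (Y.ρ g⁻¹ (B.b t)))
  rw [B.locSmul_inv, s56e2l_PsiAdd_b, ← Rep.hom_comm_apply ψ g, s56e2l_sig_smul, smul_inv_smul]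

/-- `Ψ : A ⟶ Hom(Y, A)`. -/
def s56e2l_Psi (A : Rep.{0} ℤ Γ) (ψ : tt_hom Y A ⟶ A) : A ⟶ tt_hom Y A :=
  la_ofAddHom (s56e2l_PsiAdd Y B A ψ) (s56e2l_PsiAdd_equiv Y B A ψ)

theorem s56e2l_Psi_b (A : Rep.{0} ℤ Γ) (ψ : tt_hom Y A ⟶ A) (j : A.V) (t : T) :
    ((s56e2l_Psi Y B A ψ).hom j) (B.b t) = ψ.hom (s56e2l_sig Y B A t j) :=
  s56e2l_PsiAdd_b Y B A ψ j t

/-- **The key identity**: `pr (Ψ j f) = c(f) • pr j`, `c` the additive extension of the weights. -/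
theorem s56e2l_key (c : T → ℤ) (hc : ∀ (d : ↥(𝔻.D q)) (t : T), c ((d : Γ) • t) = c t)
    (ψ : tt_hom Y (𝔻.Jq q) ⟶ 𝔻.Jq q)
    (hψ : (Rep.resFunctor (𝔻.D q).subtype).map ψ ≫ 𝔻.pr q = s56e2l_psi' 𝔻 q Y B c hc)
    (j : (𝔻.Jq q).V) (f : Y.V) :
    (𝔻.pr q).hom (((s56e2l_Psi Y B (𝔻.Jq q) ψ).hom j) f) =
      (B.locL ℤ c f • 𝔻.pr q).hom j := by
  have hfrob : ∀ h : (tt_hom Y (𝔻.Jq q)).V,
      (𝔻.pr q).hom (ψ.hom h) = s56e2l_psiAdd 𝔻 q Y B c h := by
    intro h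
    have := congrArg (fun φ => φ.hom h) hψ
    exact this
  let F₁ : Y.V →+ (𝔻.Xq q).V :=
    (ab_homAdd (𝔻.pr q)).comp (s56e2l_evAddFun Y (𝔻.Jq q) ((s56e2l_Psi Y B (𝔻.Jq q) ψ).hom j))
  let F₂ : Y.V →+ (𝔻.Xq q).V :=
    (s56e2l_homEval (A := tt_res (𝔻.D q) (𝔻.Jq q)) (C := 𝔻.Xq q) j).comp
      (((smulAddHom ℤ (tt_res (𝔻.D q) (𝔻.Jq q) ⟶ 𝔻.Xq q)).flip (𝔻.pr q)).comp (B.locL ℤ c))
  have h12 : F₁ = F₂ := by
    refine B.ext _ _ _ fun t => ?_
    show (𝔻.pr q).hom (((s56e2l_Psi Y B (𝔻.Jq q) ψ).hom j) (B.b t)) =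
      (B.locL ℤ c (B.b t) • 𝔻.pr q).hom j
    rw [s56e2l_Psi_b, hfrob, s56e2l_psiAdd_apply, s56e2_Basis.locL_b, s56e2l_zsmul_hom,
      Finset.sum_eq_single t]
    · rw [s56e2l_sig_b, Pi.single_eq_same]
    · intro t' _ ht'
      rw [s56e2l_sig_b, Pi.single_eq_of_ne ht', map_zero, smul_zero]
    · intro h
      exact absurd (Finset.mem_univ t) h
  exact DFunLike.congr_fun h12 f

/-- `Ψ` over `D_q`, typed with values in `Hom(res Y, res J_q)`. -/
def s56e2l_PsiD (ψ : tt_hom Y (𝔻.Jq q) ⟶ 𝔻.Jq q) :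
    tt_res (𝔻.D q) (𝔻.Jq q) ⟶ tt_hom (tt_res (𝔻.D q) Y) (tt_res (𝔻.D q) (𝔻.Jq q)) :=
  (Rep.resFunctor (𝔻.D q).subtype).map (s56e2l_Psi Y B (𝔻.Jq q) ψ)

/-- The composite `J_q → Hom(Y, J_q) → Hom(Y, X_q) → X_q` over `D_q` is `c(f) • pr`. -/
theorem s56e2l_comp (c : T → ℤ) (hc : ∀ (d : ↥(𝔻.D q)) (t : T), c ((d : Γ) • t) = c t)
    (ψ : tt_hom Y (𝔻.Jq q) ⟶ 𝔻.Jq q)
    (hψ : (Rep.resFunctor (𝔻.D q).subtype).map ψ ≫ 𝔻.pr q = s56e2l_psi' 𝔻 q Y B c hc)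
    (f : Y.V) (hf : ∀ d : ↥(𝔻.D q), (tt_res (𝔻.D q) Y).ρ d f = f) :
    s56e2l_PsiD 𝔻 q Y B ψ ≫ tt_homPost (tt_res (𝔻.D q) Y) (𝔻.pr q) ≫
        tt_ev (𝔻.Xq q) f hf =
      B.locL ℤ c f • 𝔻.pr q := by
  refine ab_hom_ext fun j => ?_
  rw [← s56e2l_key 𝔻 q Y B c hc ψ hψ j f]
  rfl

/-- **The invariants of `Ψ_* υ`.** -/
theorem s56e2l_inv (c : T → ℤ) (hc : ∀ (d : ↥(𝔻.D q)) (t : T), c ((d : Γ) • t) = c t)
    (ψ : tt_hom Y (𝔻.Jq q) ⟶ 𝔻.Jq q)
    (hψ : (Rep.resFunctor (𝔻.D q).subtype).map ψ ≫ 𝔻.pr q = s56e2l_psi' 𝔻 q Y B c hc)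
    (υ : groupCohomology (𝔻.Jq q) 2)
    (f : Y.V) (hf : ∀ d : ↥(𝔻.D q), (tt_res (𝔻.D q) Y).ρ d f = f) :
    (𝔻.Pq q).invTop ((tt_coeffMap (tt_ev (𝔻.Xq q) f hf) 2).hom
      ((tt_coeffMap (tt_homPost (tt_res (𝔻.D q) Y) (𝔻.pr q)) 2).hom
        ((tt_resMap (𝔻.D q) (tt_hom Y (𝔻.Jq q)) 2).hom
          ((tt_coeffMap (s56e2l_Psi Y B (𝔻.Jq q) ψ) 2).hom υ)))) =
      B.locL ℤ c f • (𝔻.Pq q).invTop ((tt_coeffMap (𝔻.pr q) 2).hom
        ((tt_resMap (𝔻.D q) (𝔻.Jq q) 2).hom υ)) := by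
  rw [ld_resMap_coeffMap]
  show (𝔻.Pq q).invTop ((tt_coeffMap (tt_ev (𝔻.Xq q) f hf) 2).hom
      ((tt_coeffMap (tt_homPost (tt_res (𝔻.D q) Y) (𝔻.pr q)) 2).hom
        ((tt_coeffMap (s56e2l_PsiD 𝔻 q Y B ψ) 2).hom
          ((tt_resMap (𝔻.D q) (𝔻.Jq q) 2).hom υ)))) = _
  rw [← ld_coeffMap_comp_apply, ← ld_coeffMap_comp_apply,
    s56e2l_comp 𝔻 q Y B c hc ψ hψ f hf, s56e2l_coeffMap_zsmul, map_zsmul]

end Loc

/-! ### The theorem -/

/-- The stabiliser of `t` in the subgroup `D` (acting through `Γ`). -/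
theorem s56e2l_card_stab {Γ T : Type} [Group Γ] [MulAction Γ T] (D : Subgroup Γ) (t : T) :
    Nat.card ↥(MulAction.stabilizer ↥D t) = Nat.card ↥(MulAction.stabilizer Γ t ⊓ D) := by
  refine Nat.card_congr
    { toFun := fun d => ⟨(d.1 : Γ), ⟨d.2, d.1.2⟩⟩
      invFun := fun g => ⟨⟨g.1, g.2.2⟩, g.2.1⟩
      left_inv := fun d => rfl
      right_inv := fun g => rfl }

/-- **(LOC).** -/
theorem s56e2l_main : s56e2_Loc_stmt := by
  intro p _ Γ _ _ ι 𝔻 q hsurj T _ _ Y B hstab τ hτ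
  classical
  have : Fintype T := Fintype.ofFinite T
  -- the generator and its lift
  obtain ⟨u, hu_pp, hu_ord⟩ := (𝔻.Pq q).inv_gen
  obtain ⟨υ₀, hυ₀⟩ := hsurj u
  let π : groupCohomology (𝔻.Jq q) 2 →+ groupCohomology (𝔻.Xq q) 2 :=
    ((tt_coeffMap (𝔻.pr q) 2).hom.toAddMonoidHom).comp
      ((tt_resMap (𝔻.D q) (𝔻.Jq q) 2).hom.toAddMonoidHom)
  have hπ₀ : π υ₀ = u := hυ₀
  obtain ⟨υ, hυ_pp, hυ⟩ := s56e2l_pprimary_lift p π υ₀ (Nat.card Γ) Nat.card_pos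
    (h2_card_smul_eq_zero (𝔻.Jq q) υ₀) (by rw [hπ₀]; exact hu_pp)
  rw [hπ₀] at hυ
  -- the weights
  have hstab' : ∀ t : T, p ∣ Nat.card ↥(MulAction.stabilizer ↥(𝔻.D q) t) := by
    intro t
    rw [s56e2l_card_stab]
    exact hstab t
  obtain ⟨c, hc, hsum⟩ := s56e2l_exists_weights (D := ↥(𝔻.D q)) p ((𝔻.Pq q).invTop u)
    hu_ord hstab' (fun t => τ (B.b t)) (fun t => hτ _)
  have hc' : ∀ (d : ↥(𝔻.D q)) (t : T), c ((d : Γ) • t) = c t := hc
  -- Frobenius reciprocity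
  obtain ⟨ψ, hψ⟩ := 𝔻.frob q (tt_hom Y (𝔻.Jq q)) (s56e2l_psi' 𝔻 q Y B c hc')
  refine ⟨(tt_coeffMap (s56e2l_Psi Y B (𝔻.Jq q) ψ) 2).hom υ, ?_, fun f hf => ?_⟩
  · exact tt_isPPrimary_map (tt_coeffMap (s56e2l_Psi Y B (𝔻.Jq q) ψ) 2).hom.toAddMonoidHom hυ_pp
  · rw [s56e2l_inv 𝔻 q Y B c hc' ψ hψ υ f hf]
    have hυ' : (tt_coeffMap (𝔻.pr q) 2).hom ((tt_resMap (𝔻.D q) (𝔻.Jq q) 2).hom υ) = u := hυ
    rw [hυ']
    -- `c(f) • w = τ f`
    set w := (𝔻.Pq q).invTop u with hw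
    have e1 := B.locExpand tt_QZ (((smulAddHom ℤ tt_QZ).flip w).comp (B.locL ℤ c)) f
    have e2 := B.locExpand tt_QZ τ f
    have e1' : B.locL ℤ c f • w = ∑ t : T, B.locCoord t f • (c t • w) := by
      rw [show B.locL ℤ c f • w = (((smulAddHom ℤ tt_QZ).flip w).comp (B.locL ℤ c)) f from rfl, e1]
      refine Finset.sum_congr rfl fun t _ => ?_
      show B.locCoord t f • (B.locL ℤ c (B.b t) • w) = _
      rw [s56e2_Basis.locL_b]
    rw [e1', e2, ← sub_eq_zero, ← Finset.sum_sub_distrib]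
    have e3 : ∀ t ∈ (Finset.univ : Finset T),
        B.locCoord t f • (c t • w) - B.locCoord t f • τ (B.b t) =
          B.locCoord t f • (c t • w - τ (B.b t)) := fun t _ => (smul_sub _ _ _).symm
    rw [Finset.sum_congr rfl e3]
    refine s56e2l_orbit_sum (D := ↥(𝔻.D q)) (fun t => B.locCoord t f) (fun d t => ?_) _ hsum
    show B.locCoord ((d : Γ) • t) f = B.locCoord t f
    have h1 : Y.ρ (d : Γ) f = f := hf d
    rw [← B.locCoord_smul (d : Γ) t f, h1]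

end

end Fermat.Agent.S56
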