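import Fermat.Agent.S56.GW.EC.H2Low.Seams
import Fermat.Agent.S55.Tate.TateNakayama

/-!
# S56 / [GW-EC] cell [EC-H2LOW], sub-cell (TN20) (prefix `s56e2t_`)

`s56e2t_main : s56e2_TN_stmt`: for a `p`-class module `(C, P)` of a finite group `Γ` and a
permutation lattice `Y`, a `p`-primary class of `H²(Γ, Hom(Y, C))` all of whose evaluations at
`Γ`-invariant elements of `Y` have invariant `0` vanishes.

The proof works for every lattice (`s56e2t_TN`): by the surjectivity of Tate's map (`tm_surj`) a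
prime-to-`p` multiple of the class is `Θ(f)` for an invariant functional `f`; the hypothesis says
that `f` takes values divisible by the `p`-part of `|Γ|` on the invariants, so a prime-to-`p`
multiple of `f` is a norm (`td_add_left_pPrimary`) and `Θ` kills norms.
-/

set_option autoImplicit false

open CategoryTheory groupCohomology

namespace Fermat.Agent.S56

open Fermat.Agent.S55

/-- A permutation basis indexed by a finite set makes `Y` a lattice. -/
theorem s56e2t_lattice {Γ : Type} [Group Γ] {T : Type} [MulAction Γ T] [Finite T]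
    (Y : Rep.{0} ℤ Γ) (B : s56e2_Basis T Y) : tt_IsLattice Y := by
  classical
  haveI := Fintype.ofFinite T
  obtain ⟨φ, hφ⟩ := B.lift (T → ℤ) (fun t => Pi.single t 1)
  let ψ : (T → ℤ) →+ Y.V :=
    ∑ t : T, (zmultiplesHom Y.V (B.b t)).comp (Pi.evalAddMonoidHom (fun _ : T => ℤ) t)
  have hψ : ∀ v : T → ℤ, ψ v = ∑ t : T, zmultiplesHom Y.V (B.b t) (v t) := by
    intro v
    show (∑ t : T, (zmultiplesHom Y.V (B.b t)).comp
      (Pi.evalAddMonoidHom (fun _ : T => ℤ) t)) v = _
    rw [AddMonoidHom.finset_sum_apply]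
    rfl
  have h1 : ψ.comp φ = AddMonoidHom.id _ := B.ext _ _ _ (fun t => by
    show ψ (φ (B.b t)) = B.b t
    rw [hφ, hψ, Finset.sum_eq_single t]
    · rw [Pi.single_eq_same, zmultiplesHom_apply, one_zsmul]
    · intro t' _ ht'
      rw [Pi.single_eq_of_ne ht', map_zero]
    · intro ht
      exact absurd (Finset.mem_univ t) ht)
  have h2 : ∀ v, φ (ψ v) = v := by
    intro v
    rw [hψ, map_sum]
    funext t'
    rw [Finset.sum_apply, Finset.sum_eq_single t']
    · rw [zmultiplesHom_apply, map_zsmul, hφ, Pi.smul_apply, Pi.single_eq_same, smul_eq_mul,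
        mul_one]
    · intro t _ ht
      rw [zmultiplesHom_apply, map_zsmul, hφ, Pi.smul_apply, Pi.single_eq_of_ne ht.symm,
        smul_zero]
    · intro ht
      exact absurd (Finset.mem_univ t') ht
  let e : Y.V ≃+ (T → ℤ) :=
    { toFun := φ
      invFun := ψ
      left_inv := fun y => DFunLike.congr_fun h1 y
      right_inv := h2
      map_add' := φ.map_add }
  exact ⟨Fintype.card T,
    ⟨e.trans (LinearEquiv.funCongrLeft ℤ ℤ (Fintype.equivFin T).symm).toAddEquiv⟩⟩

/-- **(TN20) for an arbitrary lattice.** -/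
theorem s56e2t_TN (p : ℕ) [Fact p.Prime] {Γ : Type} [Group Γ] [Finite Γ] {C : Rep.{0} ℤ Γ}
    (P : PClassModule p C) (Y : Rep.{0} ℤ Γ) (hY : tt_IsLattice Y)
    (z : groupCohomology (tt_hom Y C) 2) (hz : tt_IsPPrimary p z)
    (h : ∀ (f : Y.V) (hf : ∀ g, Y.ρ g f = f),
      P.invTop ((tt_coeffMap (tt_ev C f hf) 2).hom z) = 0) : z = 0 := by
  classical
  haveI : Fintype Γ := Fintype.ofFinite Γ
  have hp : p.Prime := Fact.out
  obtain ⟨σ, hu, hord⟩ := tn_exists_fund P
  obtain ⟨zc, hzc, rfl⟩ := te_cl2_surjective _ z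
  obtain ⟨m, hm, f, hf, γ, hγ⟩ := tm_surj Y C σ p
    (te_H2_explicit_prime (tt_hom Y (sp_split C σ)) p (fun x =>
      fg_hom_pPrimary_vanish (sp_split C σ) (tn_split_isZero P σ hu hord) Y hY 2 (by norm_num) x))
    (te_H1_explicit _ (tn_isZero_hom_funRep Y 0)) zc hzc
  set oc := ordCompl[p] (Fintype.card Γ) with hoc
  have hocp : ¬ p ∣ oc := Nat.not_dvd_ordCompl hp Fintype.card_ne_zero
  have h1 : m • te_cl2 (tt_hom Y C) zc hzc = tn_theta Y C σ f hf :=
    tn_smul_cl2_eq_theta Y C σ m zc hzc f hf γ hγ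
  have key : ∀ η : Y.V, (∀ g, tn_addRho Y g η = η) →
      ((ordProj[p] (Fintype.card Γ) : ℕ) : ℤ) ∣ f.toAddMonoidHom η := by
    intro η hη
    have h2 := h η hη
    have h3 : P.invTop ((f η : ℤ) • H2π C σ) =
        m • P.invTop ((tt_coeffMap (tt_ev C η hη) 2).hom (te_cl2 (tt_hom Y C) zc hzc)) := by
      rw [← tn_ev_theta_int Y σ f hf η hη, ← h1, map_nsmul, map_nsmul]
    rw [h2, smul_zero] at h3
    have h5 := tn_dvd_of_invTop_smul P σ hord _ h3
    rwa [Nat.card_eq_fintype_card] at h5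
  obtain ⟨f'', hf''⟩ := td_add_left_pPrimary p (tn_addRho Y) hY (f := f.toAddMonoidHom) hf key
  have h4 : oc • tn_theta Y C σ f hf = 0 :=
    tn_nsmul_theta_norm Y C σ oc f hf (tn_dualOfAddInt Y f'') hf''
  have h5 : (oc * m) • te_cl2 (tt_hom Y C) zc hzc = 0 := by rw [mul_smul, h1, h4]
  refine tn_eq_zero_of_pPrimary hp hz (oc * m) (fun hdvd => ?_) h5
  rcases (Nat.Prime.dvd_mul hp).1 hdvd with h6 | h6
  · exact hocp h6
  · exact hm h6

/-- **(TN20).** -/
theorem s56e2t_main : s56e2_TN_stmt := by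
  intro p _ Γ _ _ C P T _ _ Y B z hz h
  exact s56e2t_TN p P Y (s56e2t_lattice Y B) z hz h

end Fermat.Agent.S56
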