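import Fermat.Agent.S56.GW.EC.H2Low.Main
import Fermat.Agent.S56.GW.EC.H2Low.TN
import Fermat.Agent.S56.GW.EC.H2Low.Loc
import Fermat.Agent.S56.GW.EC.H2Low.LDG.Main

/-!
# S56 / [GW-EC] cell [EC-H2LOW], closed (prefix `s56e2_`)

`s56e2_closed`: the unconditional form of `s56e2_main` (cells (TN20) `s56e2t_main`,
(LOC) `s56e2l_main`, (LDG) `s56e2d_main`).
-/

set_option autoImplicit false

open CategoryTheory groupCohomology ExtCitation

namespace Fermat.Agent.S56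

open Fermat.Agent.S55

/-- **[EC-H2LOW], unconditional.**  For `T = Hom(ℤ[Δ × A], E_S)` (`Δ = K₀.Γ`), every family of
`p`-torsion valued `t_q : F → ℚ/ℤ` (`q ∈ S`) whose sum vanishes on the `Δ`-invariants of `F` is
the family of local invariants of a class of `H²(G_S, T)[p]`. -/
theorem s56e2_closed {p : ℕ} [Fact p.Prime] (hp2 : p ≠ 2) (S : Finset Nat.Primes)
    (hpS : pPrime p ∈ S) (K₀ : du_Lev S) (A : Rep.{0} ℤ K₀.Γ) [Finite A.V]
    (t : ↥S → (la_F A).V →+ tt_QZ) (ht : ∀ q y, p • t q y = 0)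
    (hsum : ∀ f : (la_F A).V, (∀ δ : K₀.Γ, (la_F A).ρ δ f = f) → ∑ q, t q f = 0) :
    ∃ y : lvH2 (tl_levelsS S) (dm_T S K₀.q (la_F A)), p • y = 0 ∧
      ∀ (q : ↥S) (f : dm_Yl K₀.q q.1 (la_F A))
        (hf : ∀ τ : primeLocalGaloisGroup q.1, τ • f = f),
        s56gdi_inv p q.1 ((s56e2_ev (X := tl_locUnits q.1) (tl_levelsLoc q.1) f hf).H2
          ((dm_locT S K₀.q q.1 (la_F A)).H2 y)) = t q f :=
  s56e2_main s56e2t_main s56e2l_main s56e2d_main hp2 S hpS K₀ A t ht hsum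

end Fermat.Agent.S56
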