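import Fermat.Agent.S56.GW.EC.H2Low.Eval
import Fermat.Agent.S56.GW.Dual.Inv.Seam

/-!
# S56 / [EC-H2LOW]: the local invariants of finite-level classes (concrete seam, prefix `s56e2_`)

For the concrete seam `s56gd_seam`, the top-level evaluation `s56e2_top` of a semi-local class
of level `a` is the inflation (helper19's `s56gdi_Q`) of its finite-level evaluation, hence its
limit invariant `s56gdi_inv` is the invariant of the local class module of the level.
-/

set_option autoImplicit false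
set_option linter.unusedSectionVars false

open CategoryTheory groupCohomology ExtCitation

namespace Fermat.Agent.S56

open Fermat.Agent.S55

noncomputable section

variable {p : ℕ} [Fact p.Prime] (hp2 : p ≠ 2) (S : Finset Nat.Primes) (hpS : pPrime p ∈ S)
  {K₀ a : du_Lev S} (ha : K₀ ≤ a) (Y : Rep.{0} ℤ K₀.Γ) (q : ↥S)

/-- An element of `Y` fixed by the local Galois group is fixed by `D_q(a)`. -/
lemma s56e2_fixed_D (f : dm_Yl K₀.q q.1 Y) (hf : ∀ τ : primeLocalGaloisGroup q.1, τ • f = f)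
    (d : ↥(((s56gd_seam hp2 S hpS).dat a).D q)) :
    d • dm_ql_toYq (s56gd_seam hp2 S hpS) q ha Y f = dm_ql_toYq (s56gd_seam hp2 S hpS) q ha Y f := by
  obtain ⟨τ, rfl⟩ := dm_ql_locq_surjective (s56gd_seam hp2 S hpS) a q d
  rw [← dm_ql_toYq_smul, hf]

/-- The finite-level evaluation at `f`. -/
def s56e2_evD (f : dm_Yl K₀.q q.1 Y) (hf : ∀ τ : primeLocalGaloisGroup q.1, τ • f = f) :
    LvMor (LevelSys.trivial ↥(((s56gd_seam hp2 S hpS).dat a).D q))
      (dm_ql_TX (s56gd_seam hp2 S hpS) ha Y q)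
      (LevelSys.trivial ↥(((s56gd_seam hp2 S hpS).dat a).D q))
      (tl_Act (((s56gd_seam hp2 S hpS).dat a).Xq q)) :=
  s56e2_ev _ (dm_ql_toYq (s56gd_seam hp2 S hpS) q ha Y f) (s56e2_fixed_D hp2 S hpS ha Y q f hf)

/-- Top-level evaluation after inflation is inflation after finite-level evaluation. -/
theorem s56e2_ev_infl (f : dm_Yl K₀.q q.1 Y)
    (hf : ∀ τ : primeLocalGaloisGroup q.1, τ • f = f) :
    (s56e2_ev (X := tl_locUnits q.1) (tl_levelsLoc q.1) f hf).comp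
        (dm_ql_Qloc (s56gd_seam hp2 S hpS) q ha Y).mor =
      (s56gdi_Q q.1 (s56gd_Fld.ofLev a)).mor.comp (s56e2_evD hp2 S hpS ha Y q f hf) := by
  apply hmb_LvMor_ext
  · rfl
  · rfl

set_option maxHeartbeats 3200000 in
/-- **The invariant of a finite-level semi-local class**, computed at the level. -/
theorem s56e2_inv_top (f : dm_Yl K₀.q q.1 Y)
    (hf : ∀ τ : primeLocalGaloisGroup q.1, τ • f = f)
    (ξ : lvH2 (LevelSys.trivial a.Γ) (LvHom (tl_Act (sl_Y Y ha)) (sl_J (s56gd_seam hp2 S hpS) a)))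
    (hξ : tt_IsPPrimary p ξ) :
    s56gdi_inv p q.1 ((s56e2_top (s56gd_seam hp2 S hpS) ha Y q f hf).H2 ξ) =
      (((s56gd_seam hp2 S hpS).dat a).Pq q).invTop
        (s56gdi_brd q.1 (s56gd_Fld.ofLev a)
          ((s56e2_evD hp2 S hpS ha Y q f hf).H2
            ((s56e2_kap (s56gd_seam hp2 S hpS) ha Y q).H2 ξ))) := by
  have h1 : (s56e2_top (s56gd_seam hp2 S hpS) ha Y q f hf).H2 ξ =
      (s56gdi_Q q.1 (s56gd_Fld.ofLev a)).mor.H2
        ((s56e2_evD hp2 S hpS ha Y q f hf).H2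
          ((s56e2_kap (s56gd_seam hp2 S hpS) ha Y q).H2 ξ)) := by
    unfold s56e2_top
    rw [LvMor.H2_comp, s56e2_ev_infl hp2 S hpS ha Y q f hf]
    exact LvMor.H2_comp (s56gdi_Q q.1 (s56gd_Fld.ofLev a)).mor (s56e2_evD hp2 S hpS ha Y q f hf) _
  have hw : tt_IsPPrimary p (s56gdi_brd q.1 (s56gd_Fld.ofLev a)
      ((s56e2_evD hp2 S hpS ha Y q f hf).H2
        ((s56e2_kap (s56gd_seam hp2 S hpS) ha Y q).H2 ξ))) :=
    tt_isPPrimary_map (s56gdi_brd q.1 (s56gd_Fld.ofLev a)).toAddMonoidHom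
      (tt_isPPrimary_map (s56e2_evD hp2 S hpS ha Y q f hf).H2
        (tt_isPPrimary_map (s56e2_kap (s56gd_seam hp2 S hpS) ha Y q).H2 hξ))
  rw [h1]
  exact (congrArg (s56gdi_inv p q.1) (s56gdi_infl_brd q.1 (s56gd_Fld.ofLev a) _).symm).trans
    (s56gdi_inv_infl p q.1 (s56gd_Fld.ofLev a) _ hw)

end

end Fermat.Agent.S56
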