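import Fermat.Agent.S55.Dual.BInjLevel

/-!
# S56 / [EC-H2LOW]: deep levels (prefix `s56e2_`)

If the decomposition group `D_q(a)` of a level `a ≥ K₀` has order divisible by `p · #D_q(K₀)`,
then every element of the `Γ_a`-set `Δ × A` (`Γ_a` acting through `Δ = K₀.Γ`) has a stabiliser in
`D_q(a)` of order divisible by `p`.
-/

set_option autoImplicit false

open CategoryTheory groupCohomology ExtCitation

namespace Fermat.Agent.S56

open Fermat.Agent.S55

local notation "GQ" => (AlgebraicClosure ℚ ≃ₐ[ℚ] AlgebraicClosure ℚ)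

variable {S : Finset Nat.Primes} {K₀ a : du_Lev S} (ha : K₀ ≤ a)

/-- The restriction `D_q(a) → D_q(K₀)`. -/
noncomputable def s56e2_resD (q : Nat.Primes) : ↥(a.D q) →* ↥(K₀.D q) :=
  ((du_Lev.res ha).comp (a.D q).subtype).codRestrict (K₀.D q) (by
    rintro ⟨d, τ, rfl⟩
    exact ⟨τ, (du_Lev.res_q ha _).symm⟩)

theorem s56e2_resD_surjective (q : Nat.Primes) : Function.Surjective (s56e2_resD ha q) := by
  rintro ⟨d, τ, rfl⟩
  refine ⟨⟨a.q (primeLocalToGlobal q τ), τ, rfl⟩, Subtype.ext ?_⟩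
  exact du_Lev.res_q ha _

/-- The kernel of `D_q(a) → D_q(K₀)` has order divisible by `p` for a deep level. -/
theorem s56e2_dvd_card_ker {p : ℕ} (q : Nat.Primes)
    (hdiv : p * Nat.card ↥(K₀.D q) ∣ Nat.card ↥(a.D q)) :
    p ∣ Nat.card ↥(s56e2_resD ha q).ker := by
  have h1 : Nat.card ↥(a.D q) = Nat.card ↥(s56e2_resD ha q).ker * Nat.card ↥(K₀.D q) := by
    rw [Subgroup.card_eq_card_quotient_mul_card_subgroup (s56e2_resD ha q).ker,
      Nat.card_congr (QuotientGroup.quotientKerEquivOfSurjective (s56e2_resD ha q)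
        (s56e2_resD_surjective ha q)).toEquiv, mul_comm]
  rw [h1] at hdiv
  have hpos : 0 < Nat.card ↥(K₀.D q) := Nat.card_pos
  exact Nat.dvd_of_mul_dvd_mul_right hpos hdiv

/-- **Deep levels**: the stabilisers in `D_q(a)` of the elements of `Δ × A` have order divisible
by `p`. -/
theorem s56e2_deep {p : ℕ} (A : Rep.{0} ℤ K₀.Γ) (q : Nat.Primes)
    (hdiv : p * Nat.card ↥(K₀.D q) ∣ Nat.card ↥(a.D q)) (t : la_X A) :
    p ∣ Nat.card ↥(@MulAction.stabilizer a.Γ (la_X A) _ (bi_mulAction ha A) t ⊓ a.D q) := by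
  let _ := bi_mulAction ha A
  refine (s56e2_dvd_card_ker ha q hdiv).trans ?_
  have hle : (s56e2_resD ha q).ker.map (a.D q).subtype ≤
      MulAction.stabilizer a.Γ t ⊓ a.D q := by
    rintro g ⟨d, hd, rfl⟩
    refine ⟨?_, d.2⟩
    show (d : a.Γ) ∈ MulAction.stabilizer a.Γ t
    rw [MulAction.mem_stabilizer_iff]
    have h1 : du_Lev.res ha (d : a.Γ) = 1 := congrArg Subtype.val (MonoidHom.mem_ker.1 hd)
    show du_Lev.res ha (d : a.Γ) • t = t
    rw [h1, one_smul]
  have hcard : Nat.card ↥((s56e2_resD ha q).ker.map (a.D q).subtype) =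
      Nat.card ↥(s56e2_resD ha q).ker :=
    Nat.card_congr ((s56e2_resD ha q).ker.equivMapOfInjective (a.D q).subtype
      (Subgroup.subtype_injective _)).symm.toEquiv
  rw [← hcard]
  exact Subgroup.card_dvd_of_le hle

end Fermat.Agent.S56
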