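import Fermat.Agent.S55.Dual.HomBridge
import Fermat.Agent.S55.Dual.ModulesLevel
import Fermat.Agent.S55.Dual.SeamLevel

/-!
# S56 / [EC-H2LOW]: evaluation morphisms and the semi-local projections (prefix `s56e2_`)

* `s56e2_ev L f hf`: evaluation at an invariant element, `Hom(Y, X) → X`, as a morphism of level
  cohomology;
* `s56e2_kap 𝔖 ha Y q`: `Hom(Y, ∏ J_q(a)) → Hom(Y, X_q(a))` over `D_q(a) ≤ Γ_a`;
* `s56e2_rho_eq`: the finite-level localisation `dm_ql_rho` is `s56e2_kap ∘ mi`;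
* `s56e2_loc_trans`: the local evaluations at the top level do not depend on the finite level
  (`𝔖.tJ_lam`).
-/

set_option autoImplicit false
set_option linter.unusedSectionVars false

open CategoryTheory groupCohomology ExtCitation

namespace Fermat.Agent.S56

open Fermat.Agent.S55

noncomputable section

section Ev

variable {G : Type*} [Group G] (L : LevelSys G) {Y X : Type*} [AddCommGroup Y]
  [DistribMulAction G Y] [AddCommGroup X] [DistribMulAction G X]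

/-- Evaluation at an element, as an additive map. -/
def s56e2_evHom (f : Y) : LvHom Y X →+ X where
  toFun φ := φ f
  map_zero' := rfl
  map_add' _ _ := rfl

@[simp] lemma s56e2_evHom_apply (f : Y) (φ : LvHom Y X) : s56e2_evHom (X := X) f φ = φ f := rfl

/-- Evaluation at an invariant element, as a morphism of level cohomology. -/
def s56e2_ev (f : Y) (hf : ∀ g : G, g • f = f) : LvMor L (LvHom Y X) L X :=
  LvMor.ofCoeff L (s56e2_evHom f) (fun g φ => by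
    show (g • φ) f = g • φ f
    rw [LvHom.smul_apply, hf g⁻¹])

@[simp] lemma s56e2_ev_φ_apply (f : Y) (hf : ∀ g : G, g • f = f) (φ : LvHom Y X) :
    (s56e2_ev (X := X) L f hf).φ φ = φ f := rfl

@[simp] lemma s56e2_ev_f (f : Y) (hf : ∀ g : G, g • f = f) :
    (s56e2_ev (X := X) L f hf).f = MonoidHom.id G := rfl

end Ev

section Kap

variable {p : ℕ} {S : Finset Nat.Primes} (𝔖 : du_Seam p S) {K₀ a : du_Lev S} (ha : K₀ ≤ a)
  (Y : Rep.{0} ℤ K₀.Γ) (q : ↥S)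

/-- `Hom(Y, ∏ J_q(a)) → Hom(Y, X_q(a))` over `D_q(a) ≤ Γ_a`: the `q`-th projection followed by
restriction and `pr_q`. -/
def s56e2_kap :
    LvMor (LevelSys.trivial a.Γ) (LvHom (tl_Act (sl_Y Y ha)) (sl_J 𝔖 a))
      (LevelSys.trivial ↥((𝔖.dat a).D q)) (dm_ql_TX 𝔖 ha Y q) :=
  (hmb_sh ((𝔖.dat a).D q) (sl_Y Y ha) ((𝔖.dat a).pr q)).comp
    (hmb_proj (Γ := a.Γ) (Y := tl_Act (sl_Y Y ha)) (fun q : ↥S => tl_Act ((𝔖.dat a).Jq q)) q)

@[simp] lemma s56e2_kap_f : (s56e2_kap 𝔖 ha Y q).f = ((𝔖.dat a).D q).subtype := rfl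

lemma s56e2_kap_φ_apply (φ : LvHom (tl_Act (sl_Y Y ha)) (sl_J 𝔖 a))
    (y : tl_Act (tt_res ((𝔖.dat a).D q) (sl_Y Y ha))) :
    (s56e2_kap 𝔖 ha Y q).φ φ y = ((𝔖.dat a).pr q).hom (φ y q) := rfl

variable [Nonempty ↥S] (hY : ld_IsLattice Y)

/-- The finite-level localisation is `κ_q ∘ mi`. -/
theorem s56e2_rho_eq :
    dm_ql_rho 𝔖 q ha Y =
      (s56e2_kap 𝔖 ha Y q).comp ((sl_homSes 𝔖 Y ha hY).mi (LevelSys.trivial a.Γ)) := by
  apply hmb_LvMor_ext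
  · rfl
  · rfl

theorem s56e2_rho_H2 (y : lvH2 (LevelSys.trivial a.Γ) (dm_ql_TE 𝔖 ha Y)) :
    (dm_ql_rho 𝔖 q ha Y).H2 y =
      (s56e2_kap 𝔖 ha Y q).H2 (((sl_homSes 𝔖 Y ha hY).mi (LevelSys.trivial a.Γ)).H2 y) := by
  rw [s56e2_rho_eq 𝔖 ha Y q hY, LvMor.H2_comp]

end Kap

section Top

variable {p : ℕ} {S : Finset Nat.Primes} (𝔖 : du_Seam p S) {K₀ a b : du_Lev S} (ha : K₀ ≤ a)
  (hab : a ≤ b) (Y : Rep.{0} ℤ K₀.Γ) (q : ↥S)

/-- The evaluation of a finite-level semi-local class at the top level: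
`Hom(Y, ∏ J_q(a)) → Hom(Y, X_q(a)) → T_Y^q → (ℚ̄_q)ˣ`. -/
def s56e2_top (f : dm_Yl K₀.q q.1 Y) (hf : ∀ τ : primeLocalGaloisGroup q.1, τ • f = f) :
    LvMor (LevelSys.trivial a.Γ) (LvHom (tl_Act (sl_Y Y ha)) (sl_J 𝔖 a))
      (tl_levelsLoc q.1) (tl_locUnits q.1) :=
  ((s56e2_ev (X := tl_locUnits q.1) (tl_levelsLoc q.1) f hf).comp
    (dm_ql_Qloc 𝔖 q ha Y).mor).comp (s56e2_kap 𝔖 ha Y q)

lemma s56e2_top_φ_apply (f : dm_Yl K₀.q q.1 Y)
    (hf : ∀ τ : primeLocalGaloisGroup q.1, τ • f = f)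
    (φ : LvHom (tl_Act (sl_Y Y ha)) (sl_J 𝔖 a)) :
    (s56e2_top 𝔖 ha Y q f hf).φ φ =
      𝔖.lam a q (((𝔖.dat a).pr q).hom (φ (dm_ql_toYq 𝔖 q ha Y f) q)) := rfl

variable [Nonempty ↥S] (hY : ld_IsLattice Y)

/-- **Independence of the level**: the top-level evaluation of the transition of a class is the
top-level evaluation of the class. -/
theorem s56e2_top_trans (f : dm_Yl K₀.q q.1 Y)
    (hf : ∀ τ : primeLocalGaloisGroup q.1, τ • f = f) :
    (s56e2_top 𝔖 (le_trans ha hab) Y q f hf).comp (sl_homSesMor 𝔖 Y ha hab hY).mB =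
      s56e2_top 𝔖 ha Y q f hf := by
  apply hmb_LvMor_ext
  · apply MonoidHom.ext
    intro τ
    show du_Lev.res hab (b.q (primeLocalToGlobal q.1 τ)) = a.q (primeLocalToGlobal q.1 τ)
    exact du_Lev.res_q hab _
  · apply AddMonoidHom.ext
    intro φ
    show 𝔖.lam b q (((𝔖.dat b).pr q).hom (𝔖.tJ hab q (φ f q))) =
      𝔖.lam a q (((𝔖.dat a).pr q).hom (φ f q))
    exact 𝔖.tJ_lam hab q _

theorem s56e2_top_trans_H2 (f : dm_Yl K₀.q q.1 Y)
    (hf : ∀ τ : primeLocalGaloisGroup q.1, τ • f = f)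
    (ξ : lvH2 (LevelSys.trivial a.Γ) (LvHom (tl_Act (sl_Y Y ha)) (sl_J 𝔖 a))) :
    (s56e2_top 𝔖 (le_trans ha hab) Y q f hf).H2 ((sl_homSesMor 𝔖 Y ha hab hY).mB.H2 ξ) =
      (s56e2_top 𝔖 ha Y q f hf).H2 ξ := by
  rw [← LvMor.H2_comp, s56e2_top_trans 𝔖 ha hab Y q hY f hf]

end Top

end

end Fermat.Agent.S56
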