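import Fermat.Agent.S56.GW.EC.H2Low.FinRep
import Fermat.Agent.S56.GW.EC.H2Low.Eval
import Fermat.Agent.S55.Dual.BInjLevel

/-!
# S56 / [EC-H2LOW]: the finite-level classes, level cohomology form (prefix `s56e2_`)

Transport of `s56e2_flRep` to the level cohomology of a level `a ≥ K₀` of a seam: a class
`ξ ∈ H²(Γ_a, Hom(F, ∏ J_q(a)))[p]` with prescribed local invariants dying in
`H²(Γ_a, Hom(F, C(a)))`.
-/

set_option autoImplicit false
set_option linter.unusedSectionVars false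

open CategoryTheory groupCohomology

namespace Fermat.Agent.S56

open Fermat.Agent.S55

noncomputable section

/-! ### Classes with prescribed components in a product -/

section Prod

variable {Γ : Type*} [Group Γ] [Finite Γ] {ι : Type*} {Y : Type*} [AddCommGroup Y]
  [DistribMulAction Γ Y] (X : ι → Type*) [∀ q, AddCommGroup (X q)]
  [∀ q, DistribMulAction Γ (X q)]

/-- Every family of classes is the family of components of a class of the product. -/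
theorem s56e2_exists_prod (x : ∀ q, lvH2 (LevelSys.trivial Γ) (LvHom Y (X q))) :
    ∃ ξ : lvH2 (LevelSys.trivial Γ) (LvHom Y (∀ q, X q)), ∀ q, (hmb_proj X q).H2 ξ = x q := by
  choose c hc using fun q => lvH2mk_surjective (x q)
  have hcoc : IsCocycle₂ (fun gh : Γ × Γ =>
      hmb_pi X (fun q => (c q : Γ × Γ → LvHom Y (X q)) gh)) := by
    intro g h k
    refine LvHom.ext fun y => ?_
    funext q
    exact congrArg (fun ψ : LvHom Y (X q) => ψ y) ((c q).2.1 g h k)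
  refine ⟨lvH2mk _ _ ⟨_, hcoc, LevelSys.isLC2_trivial _⟩, fun q => ?_⟩
  rw [LvMor.H2_mk, ← hc q]
  congr 1

end Prod

/-! ### The image in `H²(Γ_a, Hom(Y, C(a)))` -/

section Image

variable {p : ℕ} [hp : Fact p.Prime] {S : Finset Nat.Primes} (𝔖 : du_Seam p S) [Nonempty ↥S]
  {K₀ a : du_Lev S} (ha : K₀ ≤ a) (Y : Rep.{0} ℤ K₀.Γ) (hY : ld_IsLattice Y)

set_option maxHeartbeats 1600000 in
/-- The image of a semi-local class in `H²(Γ_a, Hom(Y, C(a)))` is the sum of the images of its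
components. -/
theorem s56e2_incl_mπ_H2
    (ξ : lvH2 (LevelSys.trivial a.Γ) (LvHom (tl_Act (sl_Y Y ha)) (sl_J 𝔖 a))) :
    (bi_inclMor 𝔖 ha Y).H2 (((sl_homSes 𝔖 Y ha hY).mπ (LevelSys.trivial a.Γ)).H2 ξ) =
      ∑ q : ↥S, (hmb_post (sl_Y Y ha) ((𝔖.dat a).j q)).H2
        ((hmb_proj (Γ := a.Γ) (Y := tl_Act (sl_Y Y ha))
          (fun q : ↥S => tl_Act ((𝔖.dat a).Jq q)) q).H2 ξ) := by
  obtain ⟨c, rfl⟩ := lvH2mk_surjective ξ
  simp only [LvMor.H2_mk]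
  rw [← map_sum]
  congr 1
  apply Subtype.ext
  rw [AddSubgroup.val_finsetSum]
  funext gh
  rw [Finset.sum_apply]
  refine LvHom.ext fun y => ?_
  have h1 : (∑ q : ↥S, ((((hmb_post (sl_Y Y ha) ((𝔖.dat a).j q)).Z2
      ((hmb_proj (Γ := a.Γ) (Y := tl_Act (sl_Y Y ha))
        (fun q : ↥S => tl_Act ((𝔖.dat a).Jq q)) q).Z2 c) : lvZ2 _ _) :
        a.Γ × a.Γ → LvHom (tl_Act (sl_Y Y ha)) (tl_Act (𝔖.dat a).C)) gh)) y =
      ∑ q : ↥S, sl_actMap ((𝔖.dat a).j q)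
        ((c : a.Γ × a.Γ → LvHom (tl_Act (sl_Y Y ha)) (sl_J 𝔖 a)) gh y q) :=
    map_sum (s56e2_evHom (X := tl_Act (𝔖.dat a).C) y) _ _
  rw [h1, ← sl_sum_apply]
  rfl

end Image

/-! ### The finite-level classes at a level of a seam -/

section Main

variable {p : ℕ} [hp : Fact p.Prime] {S : Finset Nat.Primes} (𝔖 : du_Seam p S) [Nonempty ↥S]
  {K₀ a : du_Lev S} (ha : K₀ ≤ a) (A : Rep.{0} ℤ K₀.Γ)

/-- The permutation basis of `F = ℤ[Δ × A]` over `Γ_a`. -/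
def s56e2_basisF :
    @s56e2_Basis a.Γ _ (la_X A) (bi_mulAction ha A) (sl_Y (la_F A) ha) :=
  letI := bi_mulAction ha A
  { b := bi_basis ha A
    smul := fun g t => bi_basis_smul ha A g t
    lift := fun X _ f => by
      obtain ⟨φ, hφ⟩ := bi_basis_lift ha A f
      exact ⟨LvHom.toHom φ, hφ⟩
    ext := fun X _ φ ψ h => by
      have := bi_basis_ext ha A (LvHom.of φ) (LvHom.of ψ) h
      exact this }

variable [Finite A.V] (hY : ld_IsLattice (la_F A))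

set_option maxHeartbeats 3200000 in
/-- **The finite-level classes (level cohomology form).** -/
theorem s56e2_flLv (hTN : s56e2_TN_stmt) (hLoc : s56e2_Loc_stmt)
    (hB : ∀ (q : ↥S) (w : groupCohomology ((𝔖.dat a).Xq q) 2),
      ∃ υ : groupCohomology ((𝔖.dat a).Jq q) 2,
        (tt_coeffMap ((𝔖.dat a).pr q) 2).hom
          ((tt_resMap ((𝔖.dat a).D q) ((𝔖.dat a).Jq q) 2).hom υ) = w)
    (hdeep : ∀ (q : ↥S) (t : la_X A), p ∣ Nat.card
      ↥(@MulAction.stabilizer a.Γ (la_X A) _ (bi_mulAction ha A) t ⊓ (𝔖.dat a).D q))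
    (τ : ↥S → (la_F A).V →+ tt_QZ) (hτ : ∀ q y, p • τ q y = 0)
    (hsum : ∀ f : (la_F A).V, (∀ δ : K₀.Γ, (la_F A).ρ δ f = f) → ∑ q, τ q f = 0) :
    ∃ ξ : lvH2 (LevelSys.trivial a.Γ) (LvHom (tl_Act (sl_Y (la_F A) ha)) (sl_J 𝔖 a)),
      p • ξ = 0 ∧
      (bi_inclMor 𝔖 ha (la_F A)).H2
        (((sl_homSes 𝔖 (la_F A) ha hY).mπ (LevelSys.trivial a.Γ)).H2 ξ) = 0 ∧
      ∀ (q : ↥S) (f : tl_Act (tt_res ((𝔖.dat a).D q) (sl_Y (la_F A) ha)))
        (hf : ∀ d : ↥((𝔖.dat a).D q), d • f = f)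
        (e : tl_Act ((𝔖.dat a).Xq q) ≃+ ((𝔖.dat a).Xq q).V)
        (he : ∀ (d : ↥((𝔖.dat a).D q)) (x : tl_Act ((𝔖.dat a).Xq q)),
          e (d • x) = ((𝔖.dat a).Xq q).ρ d (e x))
        (_ : ∀ x, e x = tl_ofAct _ x),
        ((𝔖.dat a).Pq q).invTop (lvH2Equiv ((𝔖.dat a).Xq q) e he
          ((s56e2_ev (X := tl_Act ((𝔖.dat a).Xq q)) (LevelSys.trivial ↥((𝔖.dat a).D q)) f hf).H2
            ((s56e2_kap 𝔖 ha (la_F A) q).H2 ξ))) = τ q f := by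
  let _ := bi_mulAction ha A
  have hsum' : ∀ f : (sl_Y (la_F A) ha).V, (∀ g : a.Γ, (sl_Y (la_F A) ha).ρ g f = f) →
      ∑ q, τ q f = 0 := by
    intro f hf
    refine hsum f fun δ => ?_
    obtain ⟨g, rfl⟩ := du_Lev.res_surjective ha δ
    exact hf g
  obtain ⟨ξR, hξR0, hξRsum, hξRinv⟩ := s56e2_flRep (𝔖.dat a) hTN hLoc hB (sl_Y (la_F A) ha)
    (s56e2_basisF ha A) (fun q z hz => 𝔖.shapiro a q _ hY 2 (Or.inr rfl) z hz) hdeep τ hτ hsum'
  obtain ⟨ξ, hξ⟩ := s56e2_exists_prod (Γ := a.Γ) (Y := tl_Act (sl_Y (la_F A) ha))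
    (fun q : ↥S => tl_Act ((𝔖.dat a).Jq q))
    (fun q => (hmb_H2 (sl_Y (la_F A) ha) ((𝔖.dat a).Jq q)).symm (ξR q))
  refine ⟨ξ, ?_, ?_, ?_⟩
  · apply hmb_H2_eq_zero_of_proj
    intro q
    rw [map_nsmul, hξ q, ← map_nsmul, hξR0, map_zero]
  · rw [s56e2_incl_mπ_H2]
    apply (hmb_H2 (sl_Y (la_F A) ha) (𝔖.dat a).C).injective
    rw [map_sum, map_zero, ← hξRsum]
    refine Finset.sum_congr rfl fun q _ => ?_
    rw [hξ q, hmb_H2_post, AddEquiv.apply_symm_apply]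
  · intro q f hf e he he0
    have hk : (s56e2_kap 𝔖 ha (la_F A) q).H2 ξ =
        (hmb_sh ((𝔖.dat a).D q) (sl_Y (la_F A) ha) ((𝔖.dat a).pr q)).H2
          ((hmb_H2 (sl_Y (la_F A) ha) ((𝔖.dat a).Jq q)).symm (ξR q)) := by
      rw [← hξ q]
      exact LvMor.H2_comp _ _ _
    rw [hk]
    have h1 := lvH2Equiv_map (tt_hom (tt_res ((𝔖.dat a).D q) (sl_Y (la_F A) ha)) ((𝔖.dat a).Xq q))
      ((𝔖.dat a).Xq q) (hmb_e (tt_res ((𝔖.dat a).D q) (sl_Y (la_F A) ha)) ((𝔖.dat a).Xq q))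
      (hmb_e_smul _ _) e he
      (s56e2_ev (X := tl_Act ((𝔖.dat a).Xq q)) (LevelSys.trivial ↥((𝔖.dat a).D q)) f hf)
      (tt_ev ((𝔖.dat a).Xq q) f hf) (fun x => he0 _)
      ((hmb_sh ((𝔖.dat a).D q) (sl_Y (la_F A) ha) ((𝔖.dat a).pr q)).H2
          ((hmb_H2 (sl_Y (la_F A) ha) ((𝔖.dat a).Jq q)).symm (ξR q)))
    rw [h1]
    have h2 := hmb_H2_sh ((𝔖.dat a).D q) (sl_Y (la_F A) ha) ((𝔖.dat a).pr q)
      ((hmb_H2 (sl_Y (la_F A) ha) ((𝔖.dat a).Jq q)).symm (ξR q))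
    rw [AddEquiv.apply_symm_apply] at h2
    have h3 := hξRinv q f hf
    unfold s56e2_locInv at h3
    rw [← h2] at h3
    exact h3

end Main

end

end Fermat.Agent.S56
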