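import Fermat.Agent.S56.GW.EC.H2Low.Seams

/-!
# S56 / [EC-H2LOW]: the finite-level classes, Mathlib cohomology form (prefix `s56e2_`)

From the cells (TN20) and (LOC): for one-level data `𝔻`, a permutation lattice `Y` whose basis
elements have stabilisers of order divisible by `p` in every `D_q`, and a family `τ_q : Y → ℚ/ℤ`
with `p`-torsion values and `Σ_q τ_q = 0` on the invariants, there are classes
`ξ_q ∈ H²(Γ, Hom(Y, J_q))[p]` with local invariants `τ_q` whose sum dies in `H²(Γ, Hom(Y, C))`.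
-/

set_option autoImplicit false
set_option linter.unusedSectionVars false

open CategoryTheory groupCohomology

namespace Fermat.Agent.S56

open Fermat.Agent.S55

section Nat

variable {Γ : Type} [Group Γ]

/-- Evaluation is natural in the coefficients. -/
theorem s56e2_homPost_ev (Y : Rep.{0} ℤ Γ) {A B : Rep.{0} ℤ Γ} (φ : A ⟶ B) (f : Y.V)
    (hf : ∀ g, Y.ρ g f = f) : tt_homPost Y φ ≫ tt_ev B f hf = tt_ev A f hf ≫ φ := by
  ext
  rfl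

/-- Restriction of a permutation basis to a subgroup. -/
def s56e2_Basis.res {T : Type} [MulAction Γ T] {Y : Rep.{0} ℤ Γ} (B : s56e2_Basis T Y)
    (D : Subgroup Γ) : s56e2_Basis T (tt_res D Y) where
  b := B.b
  smul d t := B.smul (d : Γ) t
  lift := B.lift
  ext := B.ext

/-- An invariant element is invariant under every subgroup. -/
theorem s56e2_inv_res {Y : Rep.{0} ℤ Γ} (D : Subgroup Γ) {f : Y.V} (hf : ∀ g, Y.ρ g f = f)
    (d : ↥D) : (tt_res D Y).ρ d f = f := hf d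

end Nat

section Main

variable {p : ℕ} [Fact p.Prime] {Γ : Type} [Group Γ] [Finite Γ] {ι : Type} [Fintype ι]
  (𝔻 : ld_Data p Γ ι)

/-- The local invariant of a class of `H²(Γ, Hom(Y, J_q))` at a `D_q`-invariant element. -/
noncomputable def s56e2_locInv (q : ι) (Y : Rep.{0} ℤ Γ)
    (ξ : groupCohomology (tt_hom Y (𝔻.Jq q)) 2) (f : Y.V)
    (hf : ∀ d : ↥(𝔻.D q), (tt_res (𝔻.D q) Y).ρ d f = f) : tt_QZ :=
  (𝔻.Pq q).invTop ((tt_coeffMap (tt_ev (𝔻.Xq q) f hf) 2).hom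
    ((tt_coeffMap (tt_homPost (tt_res (𝔻.D q) Y) (𝔻.pr q)) 2).hom
      ((tt_resMap (𝔻.D q) (tt_hom Y (𝔻.Jq q)) 2).hom ξ)))

/-- The local invariant, as an additive map. -/
noncomputable def s56e2_locInvHom (q : ι) (Y : Rep.{0} ℤ Γ) (f : Y.V)
    (hf : ∀ d : ↥(𝔻.D q), (tt_res (𝔻.D q) Y).ρ d f = f) :
    groupCohomology (tt_hom Y (𝔻.Jq q)) 2 →+ tt_QZ :=
  (𝔻.Pq q).invTop.comp ((tt_coeffMap (tt_ev (𝔻.Xq q) f hf) 2).hom.toAddMonoidHom.comp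
    ((tt_coeffMap (tt_homPost (tt_res (𝔻.D q) Y) (𝔻.pr q)) 2).hom.toAddMonoidHom.comp
      (tt_resMap (𝔻.D q) (tt_hom Y (𝔻.Jq q)) 2).hom.toAddMonoidHom))

theorem s56e2_locInvHom_apply (q : ι) (Y : Rep.{0} ℤ Γ) (f : Y.V)
    (hf : ∀ d : ↥(𝔻.D q), (tt_res (𝔻.D q) Y).ρ d f = f)
    (ξ : groupCohomology (tt_hom Y (𝔻.Jq q)) 2) :
    s56e2_locInvHom 𝔻 q Y f hf ξ = s56e2_locInv 𝔻 q Y ξ f hf := rfl

/-- **The sum formula for `Hom(Y, -)` coefficients**: the global invariant of the evaluation at an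
invariant `f` of the image of `ξ ∈ H²(Γ, Hom(Y, J_q))(p)` in `H²(Γ, Hom(Y, C))` is the local
invariant of `ξ` at `f`. -/
theorem s56e2_sum_ev (q : ι) (Y : Rep.{0} ℤ Γ) (ξ : groupCohomology (tt_hom Y (𝔻.Jq q)) 2)
    (hξ : tt_IsPPrimary p ξ) (f : Y.V) (hf : ∀ g, Y.ρ g f = f) :
    𝔻.P.invTop ((tt_coeffMap (tt_ev 𝔻.C f hf) 2).hom
      ((tt_coeffMap (tt_homPost Y (𝔻.j q)) 2).hom ξ)) =
      s56e2_locInv 𝔻 q Y ξ f (s56e2_inv_res (𝔻.D q) hf) := by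
  have hz : tt_IsPPrimary p ((tt_coeffMap (tt_ev (𝔻.Jq q) f hf) 2).hom ξ) :=
    tt_isPPrimary_map (tt_coeffMap (tt_ev (𝔻.Jq q) f hf) 2).hom.toAddMonoidHom hξ
  rw [← ld_coeffMap_comp_apply, s56e2_homPost_ev, ld_coeffMap_comp_apply, 𝔻.sum q _ hz,
    ld_resMap_coeffMap]
  unfold s56e2_locInv
  have h : (Rep.resFunctor (𝔻.D q).subtype).map (tt_ev (𝔻.Jq q) f hf) ≫ 𝔻.pr q =
      tt_homPost (tt_res (𝔻.D q) Y) (𝔻.pr q) ≫
        tt_ev (𝔻.Xq q) f (s56e2_inv_res (𝔻.D q) hf) := by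
    ext
    rfl
  rw [← ld_coeffMap_comp_apply, h]
  exact congrArg (𝔻.Pq q).invTop
    (ld_coeffMap_comp_apply (tt_homPost (tt_res (𝔻.D q) Y) (𝔻.pr q))
      (tt_ev (𝔻.Xq q) f (s56e2_inv_res (𝔻.D q) hf)) 2 _)


/-- **The finite-level classes (Mathlib cohomology form).** -/
theorem s56e2_flRep (hTN : s56e2_TN_stmt) (hLoc : s56e2_Loc_stmt)
    (hB : ∀ (q : ι) (w : groupCohomology (𝔻.Xq q) 2), ∃ υ : groupCohomology (𝔻.Jq q) 2,
      (tt_coeffMap (𝔻.pr q) 2).hom ((tt_resMap (𝔻.D q) (𝔻.Jq q) 2).hom υ) = w)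
    {T : Type} [MulAction Γ T] [Finite T] (Y : Rep.{0} ℤ Γ) (B : s56e2_Basis T Y)
    (hSh : ∀ (q : ι) (z : groupCohomology (tt_hom Y (𝔻.Jq q)) 2),
      (tt_coeffMap (tt_homPost (tt_res (𝔻.D q) Y) (𝔻.pr q)) 2).hom
        ((tt_resMap (𝔻.D q) (tt_hom Y (𝔻.Jq q)) 2).hom z) = 0 → z = 0)
    (hdeep : ∀ (q : ι) (t : T), p ∣ Nat.card ↥(MulAction.stabilizer Γ t ⊓ 𝔻.D q))
    (τ : ι → Y.V →+ tt_QZ) (hτ : ∀ q y, p • τ q y = 0)
    (hsum : ∀ f : Y.V, (∀ g, Y.ρ g f = f) → ∑ q, τ q f = 0) :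
    ∃ ξ : ∀ q, groupCohomology (tt_hom Y (𝔻.Jq q)) 2, (∀ q, p • ξ q = 0) ∧
      (∑ q, (tt_coeffMap (tt_homPost Y (𝔻.j q)) 2).hom (ξ q) = 0) ∧
      ∀ (q : ι) (f : Y.V) (hf : ∀ d : ↥(𝔻.D q), (tt_res (𝔻.D q) Y).ρ d f = f),
        s56e2_locInv 𝔻 q Y (ξ q) f hf = τ q f := by
  choose ξ hξp hξinv using fun q => hLoc p 𝔻 q (hB q) Y B (hdeep q) (τ q) (hτ q)
  -- the classes are killed by `p`
  have hξ0 : ∀ q, p • ξ q = 0 := by
    intro q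
    apply hSh q
    refine hTN p (𝔻.Pq q) (tt_res (𝔻.D q) Y) (B.res (𝔻.D q)) _ ?_ ?_
    · exact tt_isPPrimary_map
        (tt_coeffMap (tt_homPost (tt_res (𝔻.D q) Y) (𝔻.pr q)) 2).hom.toAddMonoidHom
        (tt_isPPrimary_map (tt_resMap (𝔻.D q) (tt_hom Y (𝔻.Jq q)) 2).hom.toAddMonoidHom
          (tt_isPPrimary_nsmul p (hξp q)))
    · intro f hf
      have h2 : s56e2_locInv 𝔻 q Y (ξ q) f hf = τ q f := hξinv q f hf
      have h1 : s56e2_locInvHom 𝔻 q Y f hf (p • ξ q) = 0 := by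
        rw [map_nsmul, s56e2_locInvHom_apply, h2, hτ]
      exact h1
  refine ⟨ξ, hξ0, ?_, fun q f hf => hξinv q f hf⟩
  -- the sum dies in `H²(Γ, Hom(Y, C))`
  refine hTN p 𝔻.P Y B _ ⟨1, ?_⟩ ?_
  · rw [pow_one, Finset.smul_sum]
    refine Finset.sum_eq_zero fun q _ => ?_
    rw [← map_nsmul, hξ0, map_zero]
  · intro f hf
    rw [map_sum, map_sum]
    rw [← hsum f hf]
    refine Finset.sum_congr rfl fun q _ => ?_
    rw [s56e2_sum_ev 𝔻 q Y (ξ q) (hξp q) f hf]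
    exact hξinv q f _

end Main

end Fermat.Agent.S56
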