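import Fermat.Agent.S56.GW.Dual.Inv.Main
import Fermat.Agent.S56.GW.Dual.Inv.Seam
import Fermat.Agent.S55.Dual.ModulesLevel
import Fermat.Agent.S55.Dual.HomBridge
import Fermat.Agent.S56.GW.Dual.Base
import Fermat.Agent.S56.GW.Dual.D6.Local

/-!
# S56 / [GW-EC] cell [EC-H2LOW]: the local invariants of an inflated class (prefix `s56e2s_`)

For the concrete seam `𝔖 = s56gd_seam`, levels `K₀ ≤ b`, a `Γ_{K₀}`-module `Y`, `q ∈ S`, an element
`f ∈ Y` fixed by the local Galois group at `q` and a `p`-primary class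
`y ∈ H²(Γ_b, Hom(Y, E(b)))`:

`inv_q (ev_f (loc_q (infl_b y))) = inv_{D_q(b)} (ev_f (ρ_q y))`,

where `infl_b = (dm_ql_Q 𝔖 hb Y).mor.H2`, `loc_q = (dm_locT S K₀.q q Y).H2`, `ev_f` is the
evaluation `Hom(Y, −) → −` at `f`, `ρ_q = dm_ql_rho` the finite-level localisation, `inv_q` the
limit local invariant `s56gdi_inv` and `inv_{D_q(b)}` the invariant of the local class module of
the level `b`.
-/

set_option autoImplicit false

open CategoryTheory groupCohomology ExtCitation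

namespace Fermat.Agent.S56

open Fermat.Agent.S55

noncomputable section

section Gen

variable {G : Type*} [Group G] (L : LevelSys G) {Y X : Type*} [AddCommGroup Y] [AddCommGroup X]
  [DistribMulAction G Y] [DistribMulAction G X]

/-- Evaluation `Hom(Y, X) → X` at a `G`-fixed element of `Y`, as a coefficient morphism. -/
def s56e2s_evMor (f : Y) (hf : ∀ g : G, g • f = f) : LvMor L (LvHom Y X) L X :=
  LvMor.ofCoeff L
    { toFun := fun φ => φ f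
      map_zero' := rfl
      map_add' := fun _ _ => rfl }
    (fun g φ => by
      show g • φ (g⁻¹ • f) = g • φ f
      rw [hf])

@[simp] theorem s56e2s_evMor_φ (f : Y) (hf : ∀ g : G, g • f = f) (φ : LvHom Y X) :
    (s56e2s_evMor L (X := X) f hf).φ φ = φ f := rfl

@[simp] theorem s56e2s_evMor_f (f : Y) (hf : ∀ g : G, g • f = f) (g : G) :
    (s56e2s_evMor L (X := X) f hf).f g = g := rfl

end Gen

section Seam

variable {p : ℕ} [Fact p.Prime] (hp2 : p ≠ 2) (S : Finset Nat.Primes) (hpS : pPrime p ∈ S)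
  {K₀ b : du_Lev S} (hb : K₀ ≤ b) (Y : Rep.{0} ℤ K₀.Γ) (q : ↥S)

/-- An element of `Y` fixed by the local Galois group at `q` is fixed by `D_q(b)`. -/
theorem s56e2s_fixed_D (f : Y.V)
    (hf : ∀ τ : primeLocalGaloisGroup q.1, Y.ρ (K₀.q (primeLocalToGlobal q.1 τ)) f = f)
    (d : ↥(((s56gd_seam hp2 S hpS).dat b).D q)) :
    (tt_res (((s56gd_seam hp2 S hpS).dat b).D q) (dm_ql_Ya hb Y)).ρ d f = f := by
  obtain ⟨τ, hτ⟩ := dm_ql_locq_surjective (s56gd_seam hp2 S hpS) b q d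
  rw [← hτ]
  show Y.ρ (du_Lev.res hb (b.q (primeLocalToGlobal q.1 τ))) f = f
  rw [du_Lev.res_q]
  exact hf τ

/-- The evaluation at `f` on the local module `T_Y^q = Hom(Y, (ℚ̄_q)ˣ)`. -/
def s56e2s_EV (f : Y.V)
    (hf : ∀ τ : primeLocalGaloisGroup q.1, Y.ρ (K₀.q (primeLocalToGlobal q.1 τ)) f = f) :
    LvMor (tl_levelsLoc q.1) (dm_Tl K₀.q q.1 Y) (tl_levelsLoc q.1) (tl_locUnits q.1) :=
  s56e2s_evMor (tl_levelsLoc q.1) (Y := dm_Yl K₀.q q.1 Y) (X := tl_locUnits q.1) f hf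

/-- The evaluation at `f` on the finite-level local module `Hom(Y, X_q(b))`. -/
def s56e2s_evFin (f : Y.V)
    (hf : ∀ τ : primeLocalGaloisGroup q.1, Y.ρ (K₀.q (primeLocalToGlobal q.1 τ)) f = f) :
    LvMor (LevelSys.trivial ↥(((s56gd_seam hp2 S hpS).dat b).D q))
      (dm_ql_TX (s56gd_seam hp2 S hpS) hb Y q)
      (LevelSys.trivial ↥(((s56gd_seam hp2 S hpS).dat b).D q))
      (tl_Act (((s56gd_seam hp2 S hpS).dat b).Xq q)) :=
  s56e2s_evMor (LevelSys.trivial ↥(((s56gd_seam hp2 S hpS).dat b).D q))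
    (Y := tl_Act (tt_res (((s56gd_seam hp2 S hpS).dat b).D q) (dm_ql_Ya hb Y)))
    (X := tl_Act (((s56gd_seam hp2 S hpS).dat b).Xq q)) f
    (s56e2s_fixed_D hp2 S hpS hb Y q f hf)

/-- `ev_f ∘ infl = infl ∘ ev_f` on the local side. -/
theorem s56e2s_EV_Qloc (f : Y.V)
    (hf : ∀ τ : primeLocalGaloisGroup q.1, Y.ρ (K₀.q (primeLocalToGlobal q.1 τ)) f = f)
    (u : lvH2 (LevelSys.trivial ↥(((s56gd_seam hp2 S hpS).dat b).D q))
      (dm_ql_TX (s56gd_seam hp2 S hpS) hb Y q)) :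
    (s56e2s_EV S Y q f hf).H2 ((dm_ql_Qloc (s56gd_seam hp2 S hpS) q hb Y).mor.H2 u) =
      (s56gdi_Q q.1 (s56gd_Fld.ofLev b)).mor.H2 ((s56e2s_evFin hp2 S hpS hb Y q f hf).H2 u) :=
  LvQuot.loc_H2 (s56e2s_EV S Y q f hf) (dm_ql_Qloc (s56gd_seam hp2 S hpS) q hb Y)
    (s56gdi_Q q.1 (s56gd_Fld.ofLev b)) (s56e2s_evFin hp2 S hpS hb Y q f hf)
    (fun _ => rfl) (fun _ => rfl) u

/-- The class `w = ev_f (ρ_q y) ∈ H²(D_q(b), X_q(b))` (Mathlib's cohomology). -/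
def s56e2s_w (f : Y.V)
    (hf : ∀ τ : primeLocalGaloisGroup q.1, Y.ρ (K₀.q (primeLocalToGlobal q.1 τ)) f = f)
    (y : lvH2 (LevelSys.trivial b.Γ) (dm_ql_TE (s56gd_seam hp2 S hpS) hb Y)) :
    groupCohomology (((s56gd_seam hp2 S hpS).dat b).Xq q) 2 :=
  s56gdc_H2e (((s56gd_seam hp2 S hpS).dat b).Xq q)
    ((s56e2s_evFin hp2 S hpS hb Y q f hf).H2 ((dm_ql_rho (s56gd_seam hp2 S hpS) q hb Y).H2 y))

/-- The bridge to Mathlib's cohomology turns the finite-level evaluation into `tt_ev`. -/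
theorem s56e2s_w_eq (f : Y.V)
    (hf : ∀ τ : primeLocalGaloisGroup q.1, Y.ρ (K₀.q (primeLocalToGlobal q.1 τ)) f = f)
    (y : lvH2 (LevelSys.trivial b.Γ) (dm_ql_TE (s56gd_seam hp2 S hpS) hb Y)) :
    s56e2s_w hp2 S hpS hb Y q f hf y =
      (tt_coeffMap (tt_ev (((s56gd_seam hp2 S hpS).dat b).Xq q) f
        (s56e2s_fixed_D hp2 S hpS hb Y q f hf)) 2).hom
        (hmb_H2 (tt_res (((s56gd_seam hp2 S hpS).dat b).D q) (dm_ql_Ya hb Y))
          (((s56gd_seam hp2 S hpS).dat b).Xq q)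
          ((dm_ql_rho (s56gd_seam hp2 S hpS) q hb Y).H2 y)) :=
  lvH2Equiv_map
    (tt_hom (tt_res (((s56gd_seam hp2 S hpS).dat b).D q) (dm_ql_Ya hb Y))
      (((s56gd_seam hp2 S hpS).dat b).Xq q))
    (((s56gd_seam hp2 S hpS).dat b).Xq q)
    (hmb_e _ _) (hmb_e_smul _ _) (tl_sf_actEquiv _) (fun _ _ => rfl)
    (s56e2s_evFin hp2 S hpS hb Y q f hf)
    (tt_ev (((s56gd_seam hp2 S hpS).dat b).Xq q) f (s56e2s_fixed_D hp2 S hpS hb Y q f hf))
    (fun _ => rfl) ((dm_ql_rho (s56gd_seam hp2 S hpS) q hb Y).H2 y)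

theorem s56e2s_w_pprimary (f : Y.V)
    (hf : ∀ τ : primeLocalGaloisGroup q.1, Y.ρ (K₀.q (primeLocalToGlobal q.1 τ)) f = f)
    (y : lvH2 (LevelSys.trivial b.Γ) (dm_ql_TE (s56gd_seam hp2 S hpS) hb Y))
    (hy : tt_IsPPrimary p y) : tt_IsPPrimary p (s56e2s_w hp2 S hpS hb Y q f hf y) := by
  obtain ⟨k, hk⟩ := hy
  refine ⟨k, ?_⟩
  unfold s56e2s_w
  rw [← map_nsmul, ← map_nsmul, ← map_nsmul, hk, map_zero, map_zero, map_zero]

/-- The inflation of `w` is `ev_f (loc_q (infl_b y))`. -/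
theorem s56e2s_inflX_w (f : Y.V)
    (hf : ∀ τ : primeLocalGaloisGroup q.1, Y.ρ (K₀.q (primeLocalToGlobal q.1 τ)) f = f)
    (y : lvH2 (LevelSys.trivial b.Γ) (dm_ql_TE (s56gd_seam hp2 S hpS) hb Y)) :
    s56gd_inflX q.1 (s56gd_Fld.ofLev b) (s56e2s_w hp2 S hpS hb Y q f hf y) =
      (s56e2s_EV S Y q f hf).H2 ((dm_locT S K₀.q q.1 Y).H2
        ((dm_ql_Q (s56gd_seam hp2 S hpS) hb Y).mor.H2 y)) := by
  rw [dm_ql_loc_H2, s56e2s_EV_Qloc]
  show (s56gd_QX q.1 (s56gd_Fld.ofLev b)).mor.H2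
    ((s56gdc_H2e (((s56gd_seam hp2 S hpS).dat b).Xq q)).symm
      (s56gdc_H2e (((s56gd_seam hp2 S hpS).dat b).Xq q)
        ((s56e2s_evFin hp2 S hpS hb Y q f hf).H2
          ((dm_ql_rho (s56gd_seam hp2 S hpS) q hb Y).H2 y)))) = _
  rw [AddEquiv.symm_apply_apply]
  rfl

/-- **The local invariants of an inflated class**: for a `p`-primary `y ∈ H²(Γ_b, Hom(Y, E(b)))`
and `f ∈ Y` fixed by the local Galois group at `q`,
`inv_q (ev_f (loc_q (infl_b y))) = inv_{D_q(b)} (ev_f (ρ_q y))`. -/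
theorem s56e2s_infl_inv (f : Y.V)
    (hf : ∀ τ : primeLocalGaloisGroup q.1, Y.ρ (K₀.q (primeLocalToGlobal q.1 τ)) f = f)
    (y : lvH2 (LevelSys.trivial b.Γ) (dm_ql_TE (s56gd_seam hp2 S hpS) hb Y))
    (hy : tt_IsPPrimary p y) :
    s56gdi_inv p q.1 ((s56e2s_EV S Y q f hf).H2 ((dm_locT S K₀.q q.1 Y).H2
        ((dm_ql_Q (s56gd_seam hp2 S hpS) hb Y).mor.H2 y))) =
      (((s56gd_seam hp2 S hpS).dat b).Pq q).invTop
        ((tt_coeffMap (tt_ev (((s56gd_seam hp2 S hpS).dat b).Xq q) f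
          (s56e2s_fixed_D hp2 S hpS hb Y q f hf)) 2).hom
          (hmb_H2 (tt_res (((s56gd_seam hp2 S hpS).dat b).D q) (dm_ql_Ya hb Y))
            (((s56gd_seam hp2 S hpS).dat b).Xq q)
            ((dm_ql_rho (s56gd_seam hp2 S hpS) q hb Y).H2 y))) := by
  rw [← s56e2s_inflX_w hp2 S hpS hb Y q f hf y, ← s56e2s_w_eq hp2 S hpS hb Y q f hf y]
  exact s56gdi_inv_infl p q.1 (s56gd_Fld.ofLev b) (s56e2s_w hp2 S hpS hb Y q f hf y)
    (s56e2s_w_pprimary hp2 S hpS hb Y q f hf y hy)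

end Seam

end

end Fermat.Agent.S56
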