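import Fermat.Agent.S56.GW.Dual.Base
import Fermat.Agent.S55.Recip.OrbitExt
import Fermat.Agent.S55.Recip.OrbitGalois
import Fermat.Agent.S55.Idele.Seam

/-!
# S56 / [GW-EC] cell [EC-H2LOW]: Shapiro surjectivity for the concrete seam (prefix `s56e2s_`)

For the concrete seam `s56gd_seam`, every level `a` and every `q ∈ S`, the semi-local module
`J_q(a) = (ℚ_q ⊗ a.L)ˣ` is coinduced from `X_q(a)` along `pr_q` (`ob_ga_isCoind`); hence
"restriction to `D_q` followed by `pr_q`" `H²(Γ_a, J_q(a)) → H²(D_q(a), X_q(a))` is onto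
(`ob_loc_ext`).  This is the hypothesis of `s56e2_Loc_stmt`.
-/

set_option autoImplicit false

open CategoryTheory groupCohomology ExtCitation

namespace Fermat.Agent.S56

open Fermat.Agent.S55

variable {p : ℕ} [Fact p.Prime] (hp2 : p ≠ 2) (S : Finset Nat.Primes) (hpS : pPrime p ∈ S)

/-- `J_q(a)` is coinduced from `X_q(a)`, for the concrete seam. -/
theorem s56e2s_isCoind (a : du_Lev S) (q : ↥S) :
    ob_IsCoind (((s56gd_seam hp2 S hpS).dat a).Jq q) (((s56gd_seam hp2 S hpS).dat a).D q)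
      (((s56gd_seam hp2 S hpS).dat a).Xq q) (((s56gd_seam hp2 S hpS).dat a).pr q) :=
  ob_ga_isCoind (id_levM a q.1) (il_D (q.1 : ℕ) a.L) (id_lev_hD a q.1) (il_Xq q.1 a.L)
    (il_pr q.1 a.L) (id_lev_hker a q.1) (il_pr_surjective q.1 a.L)

/-- Abstract form: for a coinduced module, "restriction followed by projection" is onto in
degree `2`. -/
theorem s56e2s_surj_of_isCoind {H : Type} [Group H] [Finite H] {A : Rep.{0} ℤ H} {D : Subgroup H}
    {B : Rep.{0} ℤ D} {pr : tt_res D A ⟶ B} (hc : ob_IsCoind A D B pr)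
    (w : groupCohomology B 2) :
    ∃ υ : groupCohomology A 2, (tt_coeffMap pr 2).hom ((tt_resMap D A 2).hom υ) = w := by
  have : Fintype (H ⧸ D) := Fintype.ofFinite _
  refine ⟨ob_ext hc.comp w, ?_⟩
  rw [← ob_loc_eq]
  exact ob_loc_ext hc.comp w

/-- **Shapiro surjectivity for the concrete seam**: `H²(Γ_a, J_q(a)) → H²(D_q(a), X_q(a))` is
onto (the hypothesis of `s56e2_Loc_stmt`). -/
theorem s56e2s_shsurj (a : du_Lev S) (q : ↥S)
    (w : groupCohomology (((s56gd_seam hp2 S hpS).dat a).Xq q) 2) :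
    ∃ υ : groupCohomology (((s56gd_seam hp2 S hpS).dat a).Jq q) 2,
      (tt_coeffMap (((s56gd_seam hp2 S hpS).dat a).pr q) 2).hom
        ((tt_resMap (((s56gd_seam hp2 S hpS).dat a).D q)
          (((s56gd_seam hp2 S hpS).dat a).Jq q) 2).hom υ) = w :=
  s56e2s_surj_of_isCoind (s56e2s_isCoind hp2 S hpS a q) w

end Fermat.Agent.S56
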