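import Fermat.Agent.S56.GW.EC.H2Low.Loc
import Fermat.Agent.S56.GW.EC.H2Low.ShSurj
import Fermat.Agent.S55.Dual.LocalVanish
import Fermat.Agent.S55.Dual.SeamLevel

/-!
# S56 / [GW-EC] cell [EC-H2LOW]: (LOC) at the concrete seam (prefix `s56e2l_`)

For levels `K₀ ≤ a` of `du_Lev S` and a `Γ_{K₀}`-module `A`, the lattice `Y = sl_Y (la_F A) ha`
(`F = ℤ[Δ × A]` inflated to `Γ_a`) has the permutation basis `la_X A` (`s56e2l_basis`), all
stabilisers are `ker (Γ_a → Δ)` (`s56e2l_stab`), and the growth of the local degree gives the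
divisibility hypothesis of `s56e2_Loc_stmt` (`s56e2l_dvd_of_LDG`).  `s56e2l_concrete` is (LOC)
for the concrete seam `s56gd_seam`.
-/

set_option autoImplicit false
set_option linter.unusedSectionVars false

open CategoryTheory groupCohomology ExtCitation

namespace Fermat.Agent.S56

open Fermat.Agent.S55

noncomputable section

section Abs

variable {S : Finset Nat.Primes} {K₀ a : du_Lev S} (ha : K₀ ≤ a) (A : Rep.{0} ℤ K₀.Γ)

/-- `Γ_a` acts on `Δ × A` through `Γ_a → Δ`. -/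
@[reducible] def s56e2l_actX : MulAction a.Γ (la_X A) := MulAction.compHom (la_X A) (du_Lev.res ha)

theorem s56e2l_actX_smul (g : a.Γ) (t : la_X A) :
    (s56e2l_actX ha A).smul g t = du_Lev.res ha g • t := rfl

/-- **The permutation basis of `F = ℤ[Δ × A]` over `Γ_a`.** -/
def s56e2l_basis : @s56e2_Basis a.Γ _ (la_X A) (s56e2l_actX ha A) (sl_Y (la_F A) ha) :=
  letI := s56e2l_actX ha A
  { b := fun t => MonoidAlgebra.single t (1 : ℤ)
    smul := fun g t => by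
      show (Representation.ofMulAction ℤ K₀.Γ (la_X A)) (du_Lev.res ha g)
        (MonoidAlgebra.single t (1 : ℤ)) = _
      rw [Representation.ofMulAction_single (k := ℤ) (G := K₀.Γ) (du_Lev.res ha g) t 1]
      rfl
    lift := fun X _ f => dm_lv_lift_aux f
    ext := fun X _ φ ψ h => dm_lv_ext_aux φ ψ h }

theorem s56e2l_basis_b (t : la_X A) :
    @s56e2_Basis.b a.Γ _ (la_X A) (s56e2l_actX ha A) (sl_Y (la_F A) ha) (s56e2l_basis ha A) t =
      MonoidAlgebra.single t (1 : ℤ) := rfl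

/-- The stabilisers are `ker (Γ_a → Δ)`. -/
theorem s56e2l_stab (t : la_X A) :
    @MulAction.stabilizer a.Γ (la_X A) _ (s56e2l_actX ha A) t = (du_Lev.res ha).ker := by
  let _ := s56e2l_actX ha A
  ext g
  rw [MulAction.mem_stabilizer_iff, MonoidHom.mem_ker]
  show du_Lev.res ha g • t = t ↔ _
  rw [la_smul_def]
  constructor
  · intro h
    have h1 := congrArg la_fst h
    rw [la_fst_mk] at h1
    exact mul_eq_right.1 h1
  · intro h
    rw [h, one_mul, la_mk_eta]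

/-- `D_q(a) → D_q(K₀)`. -/
def s56e2l_resD (q : Nat.Primes) : ↥(a.D q) →* ↥(K₀.D q) :=
  ((du_Lev.res ha).comp (a.D q).subtype).codRestrict (K₀.D q) (by
    rintro ⟨d, τ, rfl⟩
    exact ⟨τ, (du_Lev.res_q ha _).symm⟩)

theorem s56e2l_resD_surjective (q : Nat.Primes) : Function.Surjective (s56e2l_resD ha q) := by
  rintro ⟨d, τ, rfl⟩
  exact ⟨⟨_, τ, rfl⟩, Subtype.ext (du_Lev.res_q ha _)⟩

/-- The growth of the local degree gives the divisibility hypothesis of (LOC). -/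
theorem s56e2l_dvd_of_LDG (q : Nat.Primes) (n : ℕ)
    (h : n * Nat.card ↥(K₀.D q) ∣ Nat.card ↥(a.D q)) :
    n ∣ Nat.card ↥((du_Lev.res ha).ker ⊓ a.D q) := by
  have h1 : Nat.card ↥(a.D q) =
      Nat.card ↥(s56e2l_resD ha q).ker * Nat.card ↥(K₀.D q) := by
    rw [← Subgroup.card_mul_index (s56e2l_resD ha q).ker, Subgroup.index_ker,
      MonoidHom.range_eq_top.2 (s56e2l_resD_surjective ha q)]
    congr 1
    exact Nat.card_congr Subgroup.topEquiv.toEquiv
  have h2 : Nat.card ↥(s56e2l_resD ha q).ker = Nat.card ↥((du_Lev.res ha).ker ⊓ a.D q) := by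
    refine Nat.card_congr
      { toFun := fun d => ⟨(d.1 : a.Γ), ⟨MonoidHom.mem_ker.2
          (congrArg Subtype.val (MonoidHom.mem_ker.1 d.2)), d.1.2⟩⟩
        invFun := fun g => ⟨⟨g.1, g.2.2⟩, MonoidHom.mem_ker.2
          (Subtype.ext (MonoidHom.mem_ker.1 g.2.1))⟩
        left_inv := fun d => rfl
        right_inv := fun g => rfl }
  rw [h1, h2] at h
  exact Nat.dvd_of_mul_dvd_mul_right Nat.card_pos h

end Abs

section Seam

variable {p : ℕ} [Fact p.Prime] {S : Finset Nat.Primes}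

/-- **(LOC) for a seam.**  `K₀ ≤ a` levels, `A` a finite `Γ_{K₀}`-module, `Y = ℤ[Δ × A]` inflated
to `Γ_a`; if `H²(Γ_a, J_q) → H²(D_q, X_q)` is onto and the local degree at `q` grows by a multiple
of `p` from `K₀` to `a`, then every `τ : Y → ℚ/ℤ` killed by `p` is the family of local invariants
at `q` of a `p`-primary class of `H²(Γ_a, Hom(Y, J_q(a)))`. -/
theorem s56e2l_seam (𝔖 : du_Seam p S) {K₀ a : du_Lev S} (ha : K₀ ≤ a) (A : Rep.{0} ℤ K₀.Γ)
    [Finite A.V] (q : ↥S)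
    (hsurj : ∀ w : groupCohomology ((𝔖.dat a).Xq q) 2, ∃ υ : groupCohomology ((𝔖.dat a).Jq q) 2,
      (tt_coeffMap ((𝔖.dat a).pr q) 2).hom
        ((tt_resMap ((𝔖.dat a).D q) ((𝔖.dat a).Jq q) 2).hom υ) = w)
    (hdeg : p * Nat.card ↥(K₀.D q.1) ∣ Nat.card ↥(a.D q.1))
    (τ : (sl_Y (la_F A) ha).V →+ tt_QZ) (hτ : ∀ y, p • τ y = 0) :
    ∃ ξ : groupCohomology (tt_hom (sl_Y (la_F A) ha) ((𝔖.dat a).Jq q)) 2, tt_IsPPrimary p ξ ∧
      ∀ (f : (sl_Y (la_F A) ha).V)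
        (hf : ∀ d : ↥((𝔖.dat a).D q), (tt_res ((𝔖.dat a).D q) (sl_Y (la_F A) ha)).ρ d f = f),
        ((𝔖.dat a).Pq q).invTop ((tt_coeffMap (tt_ev ((𝔖.dat a).Xq q) f hf) 2).hom
          ((tt_coeffMap (tt_homPost (tt_res ((𝔖.dat a).D q) (sl_Y (la_F A) ha))
              ((𝔖.dat a).pr q)) 2).hom
            ((tt_resMap ((𝔖.dat a).D q) (tt_hom (sl_Y (la_F A) ha) ((𝔖.dat a).Jq q)) 2).hom ξ))) =
          τ f := by
  let _ : MulAction a.Γ (la_X A) := s56e2l_actX ha A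
  refine s56e2l_main p (𝔖.dat a) q hsurj (sl_Y (la_F A) ha) (s56e2l_basis ha A) (fun t => ?_) τ hτ
  rw [s56e2l_stab ha A t, 𝔖.dat_D a q]
  exact s56e2l_dvd_of_LDG ha q.1 p hdeg

/-- **(LOC) for the concrete seam** `s56gd_seam`: no surjectivity hypothesis left
(`s56e2s_shsurj`). -/
theorem s56e2l_concrete (hp2 : p ≠ 2) (hpS : pPrime p ∈ S) {K₀ a : du_Lev S} (ha : K₀ ≤ a)
    (A : Rep.{0} ℤ K₀.Γ) [Finite A.V] (q : ↥S)
    (hdeg : p * Nat.card ↥(K₀.D q.1) ∣ Nat.card ↥(a.D q.1))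
    (τ : (sl_Y (la_F A) ha).V →+ tt_QZ) (hτ : ∀ y, p • τ y = 0) :
    ∃ ξ : groupCohomology
        (tt_hom (sl_Y (la_F A) ha) (((s56gd_seam hp2 S hpS).dat a).Jq q)) 2, tt_IsPPrimary p ξ ∧
      ∀ (f : (sl_Y (la_F A) ha).V)
        (hf : ∀ d : ↥(((s56gd_seam hp2 S hpS).dat a).D q),
          (tt_res (((s56gd_seam hp2 S hpS).dat a).D q) (sl_Y (la_F A) ha)).ρ d f = f),
        (((s56gd_seam hp2 S hpS).dat a).Pq q).invTop
          ((tt_coeffMap (tt_ev (((s56gd_seam hp2 S hpS).dat a).Xq q) f hf) 2).hom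
            ((tt_coeffMap (tt_homPost (tt_res (((s56gd_seam hp2 S hpS).dat a).D q)
                (sl_Y (la_F A) ha)) (((s56gd_seam hp2 S hpS).dat a).pr q)) 2).hom
              ((tt_resMap (((s56gd_seam hp2 S hpS).dat a).D q)
                (tt_hom (sl_Y (la_F A) ha) (((s56gd_seam hp2 S hpS).dat a).Jq q)) 2).hom ξ))) =
          τ f :=
  s56e2l_seam (s56gd_seam hp2 S hpS) ha A q (s56e2s_shsurj hp2 S hpS a q) hdeg τ hτ

end Seam

end

end Fermat.Agent.S56
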