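import Fermat.Agent.S56.GW.EC.H2Low.Cap
import Fermat.Agent.S56.GW.EC.H2Low.Conc
import Fermat.Agent.S56.GW.EC.H2Low.FinLv
import Fermat.Agent.S56.GW.EC.H2Low.Deep
import Fermat.Agent.S56.GW.EC.H2Low.ShSurj

/-!
# S56 / [GW-EC] cell [EC-H2LOW]: global classes with prescribed local invariants (`s56e2_main`)

For `T = Hom(ℤ[Δ × A], E_S)` (`Δ = K₀.Γ`), every family of `p`-torsion valued `t_q : F → ℚ/ℤ`
(`q ∈ S`) whose sum vanishes on the `Δ`-invariants of `F` is the family of local invariants of a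
class of `H²(G_S, T)[p]`.
-/

set_option autoImplicit false
set_option linter.unusedSectionVars false

open CategoryTheory groupCohomology ExtCitation

namespace Fermat.Agent.S56

open Fermat.Agent.S55

noncomputable section

/-- A multiple `m ≡ 1 mod p` acts as the identity on `p`-torsion. -/
lemma s56e2_nsmul_of_mod {X : Type*} [AddCommGroup X] {p m : ℕ} (hm : m % p = 1) {x : X}
    (hx : p • x = 0) : m • x = x := by
  have h1 : m = p * (m / p) + 1 := by
    have := Nat.div_add_mod m p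
    omega
  rw [h1, add_smul, one_smul, mul_comm, mul_smul, hx, smul_zero, zero_add]

variable {p : ℕ} [hp : Fact p.Prime]

set_option maxHeartbeats 3200000 in
/-- **[EC-H2LOW].**  Global classes of `H²(G_S, Hom(F, E_S))[p]` with prescribed local
invariants. -/
theorem s56e2_main (hTN : s56e2_TN_stmt) (hLoc : s56e2_Loc_stmt) (hLDG : s56e2_LDG_stmt)
    (hp2 : p ≠ 2) (S : Finset Nat.Primes) (hpS : pPrime p ∈ S) (K₀ : du_Lev S)
    (A : Rep.{0} ℤ K₀.Γ) [Finite A.V]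
    (t : ↥S → (la_F A).V →+ tt_QZ) (ht : ∀ q y, p • t q y = 0)
    (hsum : ∀ f : (la_F A).V, (∀ δ : K₀.Γ, (la_F A).ρ δ f = f) → ∑ q, t q f = 0) :
    ∃ y : lvH2 (tl_levelsS S) (dm_T S K₀.q (la_F A)), p • y = 0 ∧
      ∀ (q : ↥S) (f : dm_Yl K₀.q q.1 (la_F A))
        (hf : ∀ τ : primeLocalGaloisGroup q.1, τ • f = f),
        s56gdi_inv p q.1 ((s56e2_ev (X := tl_locUnits q.1) (tl_levelsLoc q.1) f hf).H2
          ((dm_locT S K₀.q q.1 (la_F A)).H2 y)) = t q f := by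
  have : Nonempty ↥S := ⟨⟨pPrime p, hpS⟩⟩
  have hY : ld_IsLattice (la_F A) := la_free_F A
  -- a deep level
  obtain ⟨a, ha, hdiv⟩ := hLDG p S hpS K₀ 1
  have hdeep : ∀ (q : ↥S) (t : la_X A), p ∣ Nat.card
      ↥(@MulAction.stabilizer a.Γ (la_X A) _ (bi_mulAction ha A) t ⊓
        ((s56gd_seam hp2 S hpS).dat a).D q) := by
    intro q t
    rw [(s56gd_seam hp2 S hpS).dat_D]
    exact s56e2_deep ha A q.1 (by simpa using hdiv q.1 q.2) t
  -- the finite-level semi-local class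
  obtain ⟨ξ, hξ0, hξC, hξinv⟩ := s56e2_flLv (s56gd_seam hp2 S hpS) ha A hY hTN hLoc
    (fun q w => s56e2s_shsurj hp2 S hpS a q w) hdeep t ht hsum
  -- the global class at a higher level
  obtain ⟨b, hab, N, y, hN, hy0, hmi⟩ := s56e2_fin (s56gd_seam hp2 S hpS) ha A hY ξ hξ0 hξC
  have hcop : Nat.Coprime N p := ((Nat.Prime.coprime_iff_not_dvd hp.out).2 hN).symm
  obtain ⟨N', -, hN'⟩ := Nat.exists_mul_mod_eq_one_of_coprime hcop hp.out.one_lt
  refine ⟨(dm_ql_Q (s56gd_seam hp2 S hpS) (le_trans ha hab) (la_F A)).mor.H2 (N' • y), ?_, ?_⟩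
  · rw [← map_nsmul, smul_comm, hy0, smul_zero, map_zero]
  · intro q f hf
    have hξp : tt_IsPPrimary p ξ := ⟨1, by rw [pow_one]; exact hξ0⟩
    -- localise at the finite level
    have h1 : (s56e2_ev (X := tl_locUnits q.1) (tl_levelsLoc q.1) f hf).H2
        ((dm_locT S K₀.q q.1 (la_F A)).H2
          ((dm_ql_Q (s56gd_seam hp2 S hpS) (le_trans ha hab) (la_F A)).mor.H2 (N' • y))) =
        (N * N') • (s56e2_top (s56gd_seam hp2 S hpS) ha (la_F A) q f hf).H2 ξ := by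
      rw [dm_ql_loc_H2, s56e2_rho_H2 (s56gd_seam hp2 S hpS) (le_trans ha hab) (la_F A) q hY,
        map_nsmul, hmi, ← s56e2_top_trans_H2 (s56gd_seam hp2 S hpS) ha hab (la_F A) q hY f hf ξ,
        ← mul_smul, mul_comm N' N, map_nsmul, map_nsmul, map_nsmul]
      unfold s56e2_top
      rw [LvMor.H2_comp, LvMor.H2_comp]
    rw [h1, s56gdi_inv_nsmul p q.1 _ _
      (tt_isPPrimary_map (s56e2_top (s56gd_seam hp2 S hpS) ha (la_F A) q f hf).H2 hξp),
      s56e2_inv_top hp2 S hpS ha (la_F A) q f hf ξ hξp]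
    have h2 := hξinv q (dm_ql_toYq (s56gd_seam hp2 S hpS) q ha (la_F A) f)
      (s56e2_fixed_D hp2 S hpS ha (la_F A) q f hf)
      (s56gdi_e q.1 (s56gd_Fld.ofLev a)) (s56gdi_he q.1 (s56gd_Fld.ofLev a)) (fun _ => rfl)
    have h3 : (((s56gd_seam hp2 S hpS).dat a).Pq q).invTop
        (s56gdi_brd q.1 (s56gd_Fld.ofLev a)
          ((s56e2_evD hp2 S hpS ha (la_F A) q f hf).H2
            ((s56e2_kap (s56gd_seam hp2 S hpS) ha (la_F A) q).H2 ξ))) = t q f := h2
    rw [h3]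
    exact s56e2_nsmul_of_mod hN' (ht q f)

end

end Fermat.Agent.S56
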