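import Fermat.Agent.S56.GW.EC.H2Low.Seams
import Fermat.Agent.S56.GW.EC.H2Low.TN

/-!
# S56 / [GW-EC] cell [EC-H2LOW]: semi-local classes whose invariants sum to zero die in
`H²(Γ, Hom(Y, C))` (prefix `s56e2s_`)

Finite level, `Rep` vocabulary.  For one-level data `𝔻 : ld_Data p Γ ι`, a permutation lattice `Y`
and `p`-primary classes `ξ_q ∈ H²(Γ, Hom(Y, J_q))`:

* `s56e2s_inv_j` : `inv (ev_f (j_q ξ_q)) = inv_q (ev_f (pr (res ξ_q)))` for every `Γ`-invariant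
  `f ∈ Y` (naturality of the evaluations + the sum formula `𝔻.sum`);
* `s56e2s_sumC`  : if the local invariants of the `ξ_q` are `t q f` and `Σ_q t q f = 0` on the
  `Γ`-invariant `f`, then `Σ_q j_q ξ_q = 0` in `H²(Γ, Hom(Y, C))` (by (TN20)).
-/

set_option autoImplicit false

open CategoryTheory groupCohomology

namespace Fermat.Agent.S56

open Fermat.Agent.S55

section Nat

variable {Γ : Type} [Group Γ]

/-- Evaluation commutes with post-composition. -/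
theorem s56e2s_ev_post (Y : Rep.{0} ℤ Γ) {A B : Rep.{0} ℤ Γ} (φ : A ⟶ B) (f : Y.V)
    (hf : ∀ g, Y.ρ g f = f) :
    tt_homPost Y φ ≫ tt_ev B f hf = tt_ev A f hf ≫ φ := by
  refine Rep.hom_ext (DFunLike.ext _ _ fun ψ => ?_)
  rfl

/-- The restriction to a subgroup of an invariant element is invariant. -/
theorem s56e2s_inv_res (D : Subgroup Γ) (Y : Rep.{0} ℤ Γ) (f : Y.V) (hf : ∀ g, Y.ρ g f = f) :
    ∀ d : ↥D, (tt_res D Y).ρ d f = f := fun d => hf (d : Γ)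

end Nat

section Main

variable {p : ℕ} [Fact p.Prime] {Γ : Type} [Group Γ] {ι : Type} (𝔻 : ld_Data p Γ ι)
  (Y : Rep.{0} ℤ Γ)

/-- **Naturality + the sum formula**: for a `p`-primary `ξ ∈ H²(Γ, Hom(Y, J_q))` and a
`Γ`-invariant `f ∈ Y`, the global invariant of `ev_f (j_q ξ)` is the local invariant of
`ev_f (pr (res ξ))`. -/
theorem s56e2s_inv_j (q : ι) (ξ : groupCohomology (tt_hom Y (𝔻.Jq q)) 2)
    (hξ : tt_IsPPrimary p ξ) (f : Y.V) (hf : ∀ g, Y.ρ g f = f) :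
    𝔻.P.invTop ((tt_coeffMap (tt_ev 𝔻.C f hf) 2).hom
        ((tt_coeffMap (tt_homPost Y (𝔻.j q)) 2).hom ξ)) =
      (𝔻.Pq q).invTop ((tt_coeffMap (tt_ev (𝔻.Xq q) f (s56e2s_inv_res (𝔻.D q) Y f hf)) 2).hom
        ((tt_coeffMap (tt_homPost (tt_res (𝔻.D q) Y) (𝔻.pr q)) 2).hom
          ((tt_resMap (𝔻.D q) (tt_hom Y (𝔻.Jq q)) 2).hom ξ))) := by
  have hz : tt_IsPPrimary p ((tt_coeffMap (tt_ev (𝔻.Jq q) f hf) 2).hom ξ) :=
    tt_isPPrimary_map (tt_coeffMap (tt_ev (𝔻.Jq q) f hf) 2).hom.toAddMonoidHom hξ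
  rw [← ld_coeffMap_comp_apply, s56e2s_ev_post, ld_coeffMap_comp_apply, 𝔻.sum q _ hz,
    ld_resMap_coeffMap, ← ld_coeffMap_comp_apply, ← ld_coeffMap_comp_apply]
  rfl

/-- A finite sum of `p`-primary elements is `p`-primary. -/
theorem s56e2s_isPPrimary_sum {A : Type*} [AddCommGroup A] {κ : Type*} (s : Finset κ)
    (x : κ → A) (hx : ∀ i ∈ s, tt_IsPPrimary p (x i)) : tt_IsPPrimary p (∑ i ∈ s, x i) := by
  classical
  induction s using Finset.induction_on with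
  | empty =>
    rw [Finset.sum_empty]
    exact tt_isPPrimary_zero
  | insert a s ha ih =>
    rw [Finset.sum_insert ha]
    exact tt_isPPrimary_add (hx a (Finset.mem_insert_self a s))
      (ih fun i hi => hx i (Finset.mem_insert_of_mem hi))

/-- **Semi-local classes whose invariants sum to zero die in `H²(Γ, Hom(Y, C))`**, over a finset
of places. -/
theorem s56e2s_sumC_finset (hTN : s56e2_TN_stmt) [Finite Γ] {T : Type} [MulAction Γ T] [Finite T]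
    (bs : s56e2_Basis T Y) (s : Finset ι)
    (ξ : ∀ q : ι, groupCohomology (tt_hom Y (𝔻.Jq q)) 2) (hξ : ∀ q ∈ s, tt_IsPPrimary p (ξ q))
    (t : ι → Y.V →+ tt_QZ)
    (hinv : ∀ q ∈ s, ∀ (f : Y.V) (hf : ∀ d : ↥(𝔻.D q), (tt_res (𝔻.D q) Y).ρ d f = f),
      (𝔻.Pq q).invTop ((tt_coeffMap (tt_ev (𝔻.Xq q) f hf) 2).hom
        ((tt_coeffMap (tt_homPost (tt_res (𝔻.D q) Y) (𝔻.pr q)) 2).hom
          ((tt_resMap (𝔻.D q) (tt_hom Y (𝔻.Jq q)) 2).hom (ξ q)))) = t q f)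
    (hsum : ∀ f : Y.V, (∀ g, Y.ρ g f = f) → ∑ q ∈ s, t q f = 0) :
    ∑ q ∈ s, (tt_coeffMap (tt_homPost Y (𝔻.j q)) 2).hom (ξ q) = 0 := by
  refine hTN p 𝔻.P Y bs _ ?_ fun f hf => ?_
  · refine s56e2s_isPPrimary_sum s _ fun q hq => ?_
    exact tt_isPPrimary_map (tt_coeffMap (tt_homPost Y (𝔻.j q)) 2).hom.toAddMonoidHom (hξ q hq)
  · rw [map_sum, map_sum, ← hsum f hf]
    refine Finset.sum_congr rfl fun q hq => ?_
    rw [s56e2s_inv_j 𝔻 Y q (ξ q) (hξ q hq) f hf]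
    exact hinv q hq f _

/-- **Semi-local classes whose invariants sum to zero die in `H²(Γ, Hom(Y, C))`** (the assembly
(LOC) + (TN20) of [EC-H2LOW]). -/
theorem s56e2s_sumC (hTN : s56e2_TN_stmt) [Finite Γ] [Fintype ι] {T : Type} [MulAction Γ T]
    [Finite T] (bs : s56e2_Basis T Y)
    (ξ : ∀ q : ι, groupCohomology (tt_hom Y (𝔻.Jq q)) 2) (hξ : ∀ q, tt_IsPPrimary p (ξ q))
    (t : ι → Y.V →+ tt_QZ)
    (hinv : ∀ (q : ι) (f : Y.V) (hf : ∀ d : ↥(𝔻.D q), (tt_res (𝔻.D q) Y).ρ d f = f),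
      (𝔻.Pq q).invTop ((tt_coeffMap (tt_ev (𝔻.Xq q) f hf) 2).hom
        ((tt_coeffMap (tt_homPost (tt_res (𝔻.D q) Y) (𝔻.pr q)) 2).hom
          ((tt_resMap (𝔻.D q) (tt_hom Y (𝔻.Jq q)) 2).hom (ξ q)))) = t q f)
    (hsum : ∀ f : Y.V, (∀ g, Y.ρ g f = f) → ∑ q, t q f = 0) :
    ∑ q, (tt_coeffMap (tt_homPost Y (𝔻.j q)) 2).hom (ξ q) = 0 :=
  s56e2s_sumC_finset 𝔻 Y hTN bs Finset.univ ξ (fun q _ => hξ q) t (fun q _ => hinv q)
    hsum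

/-- `s56e2s_sumC_finset` with (TN20) plugged in (`s56e2t_main`). -/
theorem s56e2s_sumC_finset' [Finite Γ] {T : Type} [MulAction Γ T] [Finite T]
    (bs : s56e2_Basis T Y) (s : Finset ι)
    (ξ : ∀ q : ι, groupCohomology (tt_hom Y (𝔻.Jq q)) 2) (hξ : ∀ q ∈ s, tt_IsPPrimary p (ξ q))
    (t : ι → Y.V →+ tt_QZ)
    (hinv : ∀ q ∈ s, ∀ (f : Y.V) (hf : ∀ d : ↥(𝔻.D q), (tt_res (𝔻.D q) Y).ρ d f = f),
      (𝔻.Pq q).invTop ((tt_coeffMap (tt_ev (𝔻.Xq q) f hf) 2).hom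
        ((tt_coeffMap (tt_homPost (tt_res (𝔻.D q) Y) (𝔻.pr q)) 2).hom
          ((tt_resMap (𝔻.D q) (tt_hom Y (𝔻.Jq q)) 2).hom (ξ q)))) = t q f)
    (hsum : ∀ f : Y.V, (∀ g, Y.ρ g f = f) → ∑ q ∈ s, t q f = 0) :
    ∑ q ∈ s, (tt_coeffMap (tt_homPost Y (𝔻.j q)) 2).hom (ξ q) = 0 :=
  s56e2s_sumC_finset 𝔻 Y s56e2t_main bs s ξ hξ t hinv hsum

/-- `s56e2s_sumC` with (TN20) plugged in (`s56e2t_main`). -/
theorem s56e2s_sumC' [Finite Γ] [Fintype ι] {T : Type} [MulAction Γ T]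
    [Finite T] (bs : s56e2_Basis T Y)
    (ξ : ∀ q : ι, groupCohomology (tt_hom Y (𝔻.Jq q)) 2) (hξ : ∀ q, tt_IsPPrimary p (ξ q))
    (t : ι → Y.V →+ tt_QZ)
    (hinv : ∀ (q : ι) (f : Y.V) (hf : ∀ d : ↥(𝔻.D q), (tt_res (𝔻.D q) Y).ρ d f = f),
      (𝔻.Pq q).invTop ((tt_coeffMap (tt_ev (𝔻.Xq q) f hf) 2).hom
        ((tt_coeffMap (tt_homPost (tt_res (𝔻.D q) Y) (𝔻.pr q)) 2).hom
          ((tt_resMap (𝔻.D q) (tt_hom Y (𝔻.Jq q)) 2).hom (ξ q)))) = t q f)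
    (hsum : ∀ f : Y.V, (∀ g, Y.ρ g f = f) → ∑ q, t q f = 0) :
    ∑ q, (tt_coeffMap (tt_homPost Y (𝔻.j q)) 2).hom (ξ q) = 0 :=
  s56e2s_sumC 𝔻 Y s56e2t_main bs ξ hξ t hinv hsum

end Main

end Fermat.Agent.S56
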